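import Mathlib
import Fermat.Agent.LT.Base.Siegel

/-!
# Truncation away from the cusps

The indicator of the points without short line is invariant and tends to one; when two given
lines have heights with bounded product, only they can be short.
-/

set_option autoImplicit false

noncomputable section

open Matrix IsDedekindDomain NumberField Filter MeasureTheory
open scoped MatrixGroups Topology

namespace FermatAgent.LT

variable {L : Type*} [Field L] [NumberField L] {U : Level L}

/-- The other distinguished line. -/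
def e0 : Fin 2 → L := ![1, 0]

/-- The second vector is nonzero. -/
lemma e0_ne_zero : (e0 : Fin 2 → L) ≠ 0 := fun h => one_ne_zero (congrFun h 0)

namespace Space

lemma measurable_M (ξ : Fin 2 → L) : Measurable (M (U := U) ξ) := by
  refine Measurable.mul (Finset.measurable_prod _ fun w _ => ?_)
    ((measurable_of_countable fun c : FinCoset U =>
      ∏ᶠ v : HeightOneSpectrum (𝓞 L), locM v ξ (c.1 v)).comp measurable_snd)
  have hc : Continuous fun p : H3 => archQ (fun i => w.embedding (ξ i)) p := ?_
  · exact (hc.measurable.comp (f := fun x : Space U => x.1 w)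
      ((measurable_pi_apply w).comp measurable_fst)).pow_const _
  unfold archQ
  exact (H3.continuous_t.mul continuous_const).add ((Complex.continuous_normSq.comp
    ((continuous_const.mul H3.continuous_z).add continuous_const)).div H3.continuous_t
      fun p => p.t_pos.ne')

open Classical in
/-- The indicator of the points without short line. -/
def trunc (ε : ℝ) (x : Space U) : ℝ :=
  if ∀ ξ : Fin 2 → L, ξ ≠ 0 → ε ≤ M ξ x then 1 else 0

/-- The truncation is invariant. -/
lemma trunc_smul (ε : ℝ) (g : G2 L) (x : Space U) : trunc ε (g • x) = trunc ε x := by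
  classical
  obtain ⟨g, rfl⟩ := ProjGenLinGroup.mk_surjective g
  have key : ∀ (g : GL (Fin 2) L) (x : Space U), (∀ ξ : Fin 2 → L, ξ ≠ 0 → ε ≤ M ξ x) →
      ∀ ξ : Fin 2 → L, ξ ≠ 0 → ε ≤ M ξ (ProjGenLinGroup.mk g • x) := by
    intro g x h ξ hξ
    rw [M_smul hξ]
    refine h _ fun h0 => hξ ?_
    have := congrArg (fun x => x ᵥ* (g⁻¹).val) h0
    simpa [Matrix.vecMul_vecMul, ← Units.val_mul] using this
  unfold trunc
  refine if_congr ⟨fun h => ?_, key g x⟩ rfl rfl
  have := key g⁻¹ _ h
  rwa [map_inv, inv_smul_smul] at this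

/-- The truncation is nonnegative. -/
lemma trunc_nonneg (ε : ℝ) (x : Space U) : 0 ≤ trunc ε x := by
  unfold trunc; split_ifs <;> norm_num

/-- The truncation is at most one. -/
lemma trunc_le_one (ε : ℝ) (x : Space U) : trunc ε x ≤ 1 := by
  unfold trunc; split_ifs <;> norm_num

/-- The truncation is measurable. -/
lemma measurable_trunc (ε : ℝ) : Measurable (trunc (U := U) ε) := by
  classical
  refine Measurable.ite ?_ measurable_const measurable_const
  simp only [Set.ofPred_forall]
  exact MeasurableSet.iInter fun ξ => MeasurableSet.iInter fun _ =>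
    measurableSet_le measurable_const (measurable_M ξ)

/-- Lines different from a short one are long. -/
lemma exists_lower_bound (x : Space U) :
    ∃ c, 0 < c ∧ ∀ ξ : Fin 2 → L, ξ ≠ 0 → c ≤ M ξ x := by
  by_cases hne : ∃ η : Fin 2 → L, η ≠ 0 ∧ M η x < 1
  · obtain ⟨η, hη, hη1⟩ := hne
    refine ⟨M η x, M_pos hη x, fun ξ hξ => ?_⟩
    by_cases hd : η 0 * ξ 1 - η 1 * ξ 0 = 0
    · obtain ⟨a, rfl⟩ : ∃ a : L, ξ = a • η := by
        by_cases h0 : η 0 = 0
        · have h1 : η 1 ≠ 0 := fun h1 => hη (by funext i; fin_cases i <;> simp [h0, h1])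
          refine ⟨ξ 1 / η 1, ?_⟩
          rw [h0, zero_mul, zero_sub, neg_eq_zero, mul_eq_zero, or_iff_right h1] at hd
          funext i
          fin_cases i <;> simp [h0, h1, hd]
        · refine ⟨ξ 0 / η 0, ?_⟩
          funext i
          fin_cases i
          · simp [h0]
          · simp
            field_simp
            linear_combination hd
      rw [M_smul_vec hη fun ha => hξ (by simp [ha])]
    · have h := one_le_M_mul hd x
      nlinarith [M_pos hξ x, M_pos hη x]
  · push Not at hne
    exact ⟨1, one_pos, fun ξ hξ => hne ξ hξ⟩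

/-- The truncation tends to one. -/
lemma tendsto_trunc (x : Space U) : Tendsto (fun ε => trunc ε x) (𝓝[>] 0) (𝓝 1) := by
  obtain ⟨c, hc, h⟩ := exists_lower_bound x
  refine tendsto_const_nhds.congr' ?_
  filter_upwards [Ioo_mem_nhdsGT hc] with ε hε
  unfold trunc
  rw [if_pos fun ξ hξ => hε.2.le.trans (h ξ hξ)]

/-- With bounded product of two heights, only these two lines can be short. -/
lemma trunc_eq_two {ε C : ℝ} (hε : 0 < ε) {x : Space U}
    (hC : M e1 x * M e0 x ≤ C) (hεC : ε ^ 2 * C ≤ 1) :
    trunc ε x = (if ε ≤ M e1 x ∧ ε ≤ M e0 x then 1 else 0) := by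
  classical
  unfold trunc
  refine if_congr ⟨fun h => ⟨h _ e1_ne_zero, h _ e0_ne_zero⟩, fun h ξ hξ => ?_⟩ rfl rfl
  by_cases h0 : ξ 0 = 0
  · have h1 : ξ 1 ≠ 0 := fun h1 => hξ (by funext i; fin_cases i <;> simp [h0, h1])
    rw [show ξ = ξ 1 • e1 by funext i; fin_cases i <;> simp [e1, h0], M_smul_vec e1_ne_zero h1]
    exact h.1
  by_cases h1 : ξ 1 = 0
  · rw [show ξ = ξ 0 • e0 by funext i; fin_cases i <;> simp [e0, h1], M_smul_vec e0_ne_zero h0]
    exact h.2
  have k1 : 1 ≤ M ξ x * M e1 x := one_le_M_mul (by simpa [e1] using h0) x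
  have k0 : 1 ≤ M ξ x * M e0 x := one_le_M_mul (by simpa [e0] using h1) x
  by_contra hlt
  rw [not_le] at hlt
  have hp : 0 < M e1 x * M e0 x := mul_pos (M_pos e1_ne_zero x) (M_pos e0_ne_zero x)
  have : (1 : ℝ) < ε ^ 2 * C := by
    calc (1 : ℝ) ≤ (M ξ x * M e1 x) * (M ξ x * M e0 x) := one_le_mul_of_one_le_of_one_le k1 k0
      _ = M ξ x ^ 2 * (M e1 x * M e0 x) := by ring
      _ < ε ^ 2 * (M e1 x * M e0 x) :=
        mul_lt_mul_of_pos_right (pow_lt_pow_left₀ hlt (M_pos hξ x).le two_ne_zero) hp
      _ ≤ ε ^ 2 * C := mul_le_mul_of_nonneg_left hC (by positivity)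
  linarith

/-- For all small `ε > 0` the truncation at `ε` of the integral of `f` over `s` converges and is
zero. -/
def TruncZero (s : Set (Space U)) (f : Space U → ℂ) : Prop :=
  ∀ᶠ ε in 𝓝[>] (0 : ℝ),
    Integrable (fun x => f x * (trunc ε x : ℂ)) ((vol U).restrict s) ∧
      ∫ x in s, f x * (trunc ε x : ℂ) ∂vol U = 0

/-- All truncations of the integral of `f` over `s` converge and, as functions of `t = log ε`, have
integrals bounded independently of the interval for intervals close enough to `-∞`. -/
def TruncBdd (s : Set (Space U)) (f : Space U → ℂ) : Prop :=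
  (∀ ε, 0 < ε → Integrable (fun x => f x * (trunc ε x : ℂ)) ((vol U).restrict s)) ∧
    ∃ M s₀ : ℝ, ∀ A B, A ≤ B → B ≤ s₀ →
      IntervalIntegrable (fun t => ∫ x in s, f x * (trunc (Real.exp t) x : ℂ) ∂vol U) volume A B ∧
        ‖∫ t in A..B, ∫ x in s, f x * (trunc (Real.exp t) x : ℂ) ∂vol U‖ ≤ M

end Space

end FermatAgent.LT
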