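import Mathlib
import Fermat.Agent.LT.Whit.Adel
import Fermat.Agent.LT.Descent.CuspKer
import Fermat.Agent.LT.Descent.Hyp.Trunc
import Fermat.Agent.LT.Descent.Indic

/-!
# Cosets on the unit slice of a split torus

The cosets with bottom height one are the translates of integral classes.  Against a diagonal
element other than one a kernel with finite rows meets the slice in a finite set.
-/

set_option autoImplicit false

noncomputable section

open Matrix IsDedekindDomain NumberField Filter
open scoped MatrixGroups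

namespace FermatAgent.LT.Hyp

open Whit

variable {L : Type*} [Field L] [NumberField L] {U : Level L} {v : HeightOneSpectrum (𝓞 L)}

/-- Local sizes scale quadratically. -/
lemma locM_smul_vec (ξ : Fin 2 → L) (a : L) (c : G2 L ⧸ U.loc v) :
    locM v (a • ξ) c = absV v a ^ 2 * locM v ξ c := by
  induction c using QuotientGroup.induction_on with | H h =>
  induction h using Matrix.ProjGenLinGroup.induction_on with | mk h =>
  simp only [locM_mk, locMGL, vecAbs, Matrix.smul_vecMul, Pi.smul_apply, smul_eq_mul, map_mul]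
  rw [← mul_max_of_nonneg _ _ (AbsoluteValue.nonneg _ _), mul_pow, mul_div_assoc]

/-- Translations fix the first size. -/
lemma locM_nB (β : L) (c : G2 L ⧸ U.loc v) : locM v e1 ((nB β : G2 L) • c) = locM v e1 c := by
  rw [locM_smul, show (e1 : Fin 2 → L) ᵥ* (uB β).val = e1 by
    funext i; fin_cases i <;> simp [e1, Matrix.vecMul, dotProduct, Fin.sum_univ_two]]
  simp [Matrix.det_fin_two]

/-- Diagonal elements scale the first size. -/
lemma locM_e1_dG (α : Lˣ) (c : G2 L ⧸ U.loc v) :
    locM v e1 ((dG α : G2 L) • c) = locM v e1 c / absV v (α : L) := by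
  rw [locM_smul, show (e1 : Fin 2 → L) ᵥ* (dB α).val = e1 by
    funext i; fin_cases i <;> simp [e1, Matrix.vecMul, dotProduct, Fin.sum_univ_two]]
  simp [Matrix.det_fin_two]

/-- Diagonal elements scale the second size. -/
lemma locM_e0_dG (α : Lˣ) (c : G2 L ⧸ U.loc v) :
    locM v e0 ((dG α : G2 L) • c) = locM v e0 c * absV v (α : L) := by
  rw [locM_smul, show (e0 : Fin 2 → L) ᵥ* (dB α).val = (α : L) • e0 by
    funext i; fin_cases i <;> simp [e0, Matrix.vecMul, dotProduct, Fin.sum_univ_two],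
    locM_smul_vec]
  have h : absV v (α : L) ≠ 0 := by simp
  simp [Matrix.det_fin_two]
  field_simp

/-- The logarithm of the product of the two distinguished local heights. -/
def lw (c : G2 L ⧸ U.loc v) : ℝ := Real.log (locM v e1 c * locM v e0 c)

/-- The local width is invariant under the torus. -/
lemma lw_dG (α : Lˣ) (c : G2 L ⧸ U.loc v) : lw ((dG α : G2 L) • c) = lw c := by
  unfold lw
  rw [locM_e1_dG, locM_e0_dG]
  have h : absV v (α : L) ≠ 0 := by simp
  congr 1
  field_simp

variable (U v) in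
/-- The cosets with bottom height one. -/
def slice : Set (G2 L ⧸ U.loc v) := {c | locM v e1 c = 1}

/-- The slice consists of translates of integral classes. -/
lemma exists_slice_rep {c : G2 L ⧸ U.loc v} (hc : c ∈ slice U v) :
    ∃ β : L, ∃ κ ∈ locK v, c = (nB β : G2 L) • QuotientGroup.mk κ := by
  induction c using QuotientGroup.induction_on with | H g₀ =>
  obtain ⟨g, rfl⟩ := ProjGenLinGroup.mk_surjective g₀
  obtain ⟨b, hb, k, hk, rfl⟩ := exists_iwasawa v g
  obtain ⟨α, β, hαβ⟩ := exists_upper_form hb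
  have e : (QuotientGroup.mk (ProjGenLinGroup.mk (b * k)) : G2 L ⧸ U.loc v) =
      (nB β : G2 L) • (dG α : G2 L) • QuotientGroup.mk (ProjGenLinGroup.mk k) := by
    rw [map_mul, hαβ, map_mul, MulAction.Quotient.smul_mk, MulAction.Quotient.smul_mk, smul_eq_mul,
      smul_eq_mul, mul_assoc]
  have h1 : locM v e1 (QuotientGroup.mk (ProjGenLinGroup.mk k) : G2 L ⧸ U.loc v) = 1 := by
    rw [locM_mk, ← one_mul k, locMGL_mul_locGL v _ _ hk]
    simp [locMGL, vecAbs, e1]
  have hc' : locM v e1 _ = 1 := hc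
  rw [e, locM_nB, locM_e1_dG, h1, one_div, inv_eq_one, absV_eq_one_iff] at hc'
  refine ⟨β, dG α * ProjGenLinGroup.mk k,
    (locK v).mul_mem (dG_mem_locK hc') ⟨k, hk, rfl⟩, ?_⟩
  rw [e, MulAction.Quotient.smul_mk (G := G2 L)]
  rfl

/-- Translates by a bounded set of translations are finite in number. -/
theorem finite_ball_translates (hU : U.IsCongr) (R : WithZero (Multiplicative ℤ))
    (c : G2 L ⧸ U.loc v) :
    ((fun x : L => (nB x : G2 L) • c) '' {x | v.valuation L x ≤ R}).Finite := by
  classical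
  obtain ⟨γ, hγ0, hγ⟩ := exists_fix_bound hU v c
  obtain ⟨π, hπ, hπ0⟩ := Submodule.exists_mem_ne_zero_of_ne_bot v.ne_bot
  have hπlt : v.valuation L (π : L) < 1 := by
    rwa [RingOfIntegers.coe_eq_algebraMap, HeightOneSpectrum.valuation_lt_one_iff_mem]
  have hπne : v.valuation L (π : L) ≠ 0 := by simpa using hπ0
  have hπe : v.valuation L (π : L) ≤ WithZero.exp (-1 : ℤ) := by
    rw [← WithZero.exp_log hπne, WithZero.exp_le_exp]
    have := (WithZero.log_lt_iff_lt_exp hπne).mpr (by rwa [WithZero.exp_zero])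
    omega
  have hpow : ∀ n : ℕ, v.valuation L ((π : L) ^ n) ≤ WithZero.exp (-(n : ℤ)) := fun n => by
    rw [map_pow]
    refine (pow_le_pow_left₀ zero_le hπe n).trans (le_of_eq ?_)
    rw [← WithZero.exp_nsmul]
    simp
  by_cases hR : R = 0
  · refine (Set.finite_singleton c).subset ?_
    rintro _ ⟨x, hx, rfl⟩
    subst hR
    exact hγ x (le_of_le_of_eq hx rfl |>.trans zero_le)
  set d : 𝓞 L := π ^ (WithZero.log R).toNat
  have hd0 : (d : L) ≠ 0 := by simpa [d] using fun h => absurd h hπ0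
  have hd : ∀ x : L, v.valuation L x ≤ R → v.valuation L ((d : L) * x) ≤ 1 := fun x hx => by
    rw [map_mul, ← WithZero.exp_zero]
    refine (mul_le_mul' (show v.valuation L (d : L) ≤ WithZero.exp (-((WithZero.log R).toNat : ℤ))
      from (show (d : L) = (π : L) ^ (WithZero.log R).toNat by simp [d]) ▸ hpow _)
        (hx.trans (WithZero.exp_log hR).ge)).trans ?_
    rw [← WithZero.exp_add, WithZero.exp_le_exp]
    omega
  have hdne : v.valuation L (d : L) ≠ 0 := by simpa using hd0
  set m : ℕ := (-(WithZero.log γ + WithZero.log (v.valuation L (d : L)))).toNat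
  have hm : ∀ a : 𝓞 L, a ∈ v.asIdeal ^ m → v.valuation L ((a : L) / d) ≤ γ := fun a ha => by
    have h1 : v.valuation L (a : L) ≤ WithZero.exp (-(m : ℤ)) := by
      rw [RingOfIntegers.coe_eq_algebraMap, HeightOneSpectrum.valuation_of_algebraMap]
      exact (HeightOneSpectrum.intValuation_le_pow_iff_mem v a m).mpr ha
    rw [map_div₀, div_le_iff₀ (zero_lt_iff.mpr hdne)]
    refine h1.trans ?_
    rw [← WithZero.exp_log hγ0, ← WithZero.exp_log hdne, ← WithZero.exp_add, WithZero.exp_le_exp]
    omega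
  have : Finite (𝓞 L ⧸ v.asIdeal ^ m) :=
    Ideal.finiteQuotientOfFreeOfNeBot _ (pow_ne_zero _ v.ne_bot)
  have happ : ∀ x : L, v.valuation L x ≤ R → ∃ b : 𝓞 L,
      (nB ((b : L) / d) : G2 L) • c = (nB x : G2 L) • c := by
    intro x hx
    obtain ⟨y, hy, hy'⟩ := exists_strong_approx {v} (fun _ => x)
      (fun _ => min γ R) fun _ => (lt_min (zero_lt_iff.mpr hγ0) (zero_lt_iff.mpr hR)).ne'
    have hy1 := hy v (Finset.mem_singleton_self v)
    have hyR : v.valuation L y ≤ R := by
      rw [show y = (y - x) + x by ring]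
      exact ((v.valuation L).map_add _ _).trans (max_le (hy1.trans (min_le_right _ _)) hx)
    obtain ⟨b, hb⟩ := HeightOneSpectrum.mem_integers_of_valuation_le_one L ((d : L) * y) fun u => by
      by_cases hu : u = v
      · rw [hu]; exact hd y hyR
      · rw [map_mul]
        exact mul_le_one' (u.valuation_le_one _) (hy' u (by simpa using hu))
    refine ⟨b, ?_⟩
    rw [show ((b : L) / d) = x + (y - x) by
      rw [RingOfIntegers.coe_eq_algebraMap, hb]; field_simp; ring, nB_add, mul_smul,
      hγ _ (hy1.trans (min_le_left _ _))]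
  choose! b hb using happ
  refine Set.Finite.of_surjOn (s := (Set.univ : Set (𝓞 L ⧸ v.asIdeal ^ m)))
    (f := fun q => (nB ((q.out : 𝓞 L) / d : L) : G2 L) • c) ?_ Set.finite_univ
  rintro _ ⟨x, hx, rfl⟩
  refine ⟨Ideal.Quotient.mk _ (b x), Set.mem_univ _, ?_⟩
  dsimp only
  set q := Quotient.out (Ideal.Quotient.mk (v.asIdeal ^ m) (b x))
  have hq : q - b x ∈ v.asIdeal ^ m := Ideal.Quotient.eq.mp (Quotient.out_eq _)
  have hsmall := hm _ hq
  rw [← hb x hx, show ((q : L) / d) = (b x : L) / d + ((q - b x : 𝓞 L) : L) / d by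
    push_cast; ring, nB_add, mul_smul, hγ _ hsmall]

/-- Against a diagonal element other than one a kernel with finite rows meets the slice in a
finite set. -/
theorem finite_slice (hU : U.IsCongr) (k : LocKer U v) {a : Lˣ} (ha : (a : L) ≠ 1) :
    {c | c ∈ slice U v ∧ k.k ((dG a : G2 L) • c) c ≠ 0}.Finite := by
  classical
  have hfin : (U.loc v).relIndex (locK v) ≠ 0 := hU.isFiniteIndex v
  set base : G2 L ⧸ U.loc v := QuotientGroup.mk 1
  have hcls : ∀ κ ∈ locK v, (QuotientGroup.mk κ : G2 L ⧸ U.loc v) ∈ LocKer.ball (locK v) base := by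
    intro κ hκ
    show LocKer.indF (locK v) base (QuotientGroup.mk κ) ≠ 0
    rw [show LocKer.indF (locK v) base (QuotientGroup.mk κ) =
      if (1 : G2 L)⁻¹ * κ ∈ locK v then 1 else 0 from LocKer.indF_mk (U.le v) 1 κ,
        if_pos (by simpa using hκ)]
    exact one_ne_zero
  set R : WithZero (Multiplicative ℤ) := (v.valuation L (1 - (a : L)))⁻¹
  refine Set.Finite.subset
    (s := ⋃ d ∈ LocKer.ball (locK v) base, ⋃ e ∈ {e | k.k ((dG a : G2 L) • d) e ≠ 0},
        (fun β : L => (nB β : G2 L) • d) '' {β | (nB ((1 - (a : L)) * β) : G2 L) • d = e})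
    ((LocKer.finite_ball (U.le v) hfin base).biUnion fun d hd1 =>
      (k.row ((dG a : G2 L) • d)).biUnion fun e _ => ?_) ?_
  · by_cases he : ∃ β₀, (nB ((1 - (a : L)) * β₀) : G2 L) • d = e
    · obtain ⟨β₀, h₀⟩ := he
      refine ((finite_ball_translates hU (R) d).image fun c => (nB β₀ : G2 L) • c).subset ?_
      rintro _ ⟨β, hβ, rfl⟩
      refine ⟨(nB (β - β₀) : G2 L) • d, ⟨β - β₀, ?_, rfl⟩, ?_⟩
      · have hfix : (nB ((1 - (a : L)) * (β - β₀)) : G2 L) • d = d := by
          rw [show (1 - (a : L)) * (β - β₀) = -((1 - (a : L)) * β₀) + (1 - (a : L)) * β by ring,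
            nB_add, mul_smul, hβ, ← h₀, ← mul_smul, ← nB_add, neg_add_cancel, nB_zero, one_smul]
        induction d using QuotientGroup.induction_on with | H g₀ => ?_
        replace hd1 : LocKer.indF (locK v) base (QuotientGroup.mk g₀) ≠ 0 := hd1
        rw [show LocKer.indF (locK v) base (QuotientGroup.mk g₀) =
          if (1 : G2 L)⁻¹ * g₀ ∈ locK v then 1 else 0 from LocKer.indF_mk (U.le v) 1 g₀] at hd1
        have hg₀ : g₀ ∈ locK v := by simpa using hd1
        rw [MulAction.Quotient.smul_mk, QuotientGroup.eq, smul_eq_mul] at hfix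
        have hn : (nB ((1 - (a : L)) * (β - β₀)) : G2 L) ∈ locK v := by
          have := (locK v).inv_mem (U.le v hfix)
          rw [_root_.mul_inv_rev, inv_inv] at this
          exact ((locK v).mul_mem_cancel_right hg₀).mp
            (((locK v).mul_mem_cancel_left ((locK v).inv_mem hg₀)).mp this)
        show v.valuation L (β - β₀) ≤ _
        have h1 := val_le_one_of_nB_mem hn
        simp only [R]
        rw [map_mul] at h1
        rw [← one_div, le_div_iff₀ (zero_lt_iff.mpr (by
          simpa [sub_eq_zero] using fun h : (1 : L) = a => ha h.symm)), mul_comm]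
        exact h1
      · dsimp only
        rw [← mul_smul, ← nB_add, add_sub_cancel]
    · refine Set.finite_empty.subset ?_
      rintro _ ⟨β, hβ, -⟩
      exact he ⟨β, hβ⟩
  · rintro c ⟨hc, hk⟩
    obtain ⟨β, κ, hκ, rfl⟩ := exists_slice_rep hc
    simp only [Set.mem_iUnion, Set.mem_image, Set.mem_ofPred_eq]
    refine ⟨QuotientGroup.mk κ, hcls κ hκ, (nB ((1 - (a : L)) * β) : G2 L) • QuotientGroup.mk κ,
      ?_, β, rfl, rfl⟩
    rwa [← k.inv (nB ((a : L) * β)), ← mul_smul, ← mul_smul (nB ((a : L) * β)),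
      ← nB_add, ← dG_mul_nB, mul_smul, show (a : L) * β + (1 - (a : L)) * β = β by ring]

/-- Right translation by finitely many elements changes heights boundedly. -/
theorem exists_locM_comp (Q : Finset (G2 L)) :
    ∃ C : ℝ, 1 ≤ C ∧ ∀ q ∈ Q, ∀ (h : G2 L) (ξ : Fin 2 → L),
      locM v ξ (QuotientGroup.mk (h * q) : G2 L ⧸ U.loc v) ≤
          C * locM v ξ (QuotientGroup.mk h : G2 L ⧸ U.loc v) ∧
        locM v ξ (QuotientGroup.mk h : G2 L ⧸ U.loc v) ≤
          C * locM v ξ (QuotientGroup.mk (h * q) : G2 L ⧸ U.loc v) := by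
  classical
  let r : G2 L → GL (Fin 2) L := fun q => (ProjGenLinGroup.mk_surjective q).choose
  have hr : ∀ q, ProjGenLinGroup.mk (r q) = q :=
    fun q => (ProjGenLinGroup.mk_surjective q).choose_spec
  refine ⟨1 + ∑ q ∈ Q, (gNorm v (r q) + gNorm v (r q)⁻¹),
    le_add_of_nonneg_right (Finset.sum_nonneg fun d _ =>
      add_nonneg (gNorm_nonneg _ _) (gNorm_nonneg _ _)), fun q hq h ξ => ?_⟩
  obtain ⟨g, rfl⟩ := ProjGenLinGroup.mk_surjective h
  have hn : ∀ x : GL (Fin 2) L, 0 ≤ locMGL v ξ x := fun x =>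
    div_nonneg (sq_nonneg _) (AbsoluteValue.nonneg _ _)
  have hsum : gNorm v (r q) + gNorm v (r q)⁻¹ ≤ ∑ q ∈ Q, (gNorm v (r q) + gNorm v (r q)⁻¹) :=
    Finset.single_le_sum (f := fun q => gNorm v (r q) + gNorm v (r q)⁻¹)
      (fun d _ => add_nonneg (gNorm_nonneg _ _) (gNorm_nonneg _ _)) hq
  rw [← hr q, ← map_mul, locM_mk, locM_mk]
  constructor
  · refine (locMGL_mul_le v ξ g (r q)).trans (mul_le_mul_of_nonneg_right ?_ (hn _))
    linarith [gNorm_nonneg v (r q)⁻¹]
  · conv_lhs => rw [← mul_inv_cancel_right g (r q)]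
    refine (locMGL_mul_le v ξ _ _).trans (mul_le_mul_of_nonneg_right ?_ (hn _))
    linarith [gNorm_nonneg v (r q)]

/-- Neighbours have comparable heights. -/
theorem exists_ratio (k : LocKer U v) :
    ∃ C : ℝ, 1 ≤ C ∧ ∀ c e, k.k c e ≠ 0 → ∀ ξ : Fin 2 → L,
      locM v ξ e ≤ C * locM v ξ c ∧ locM v ξ c ≤ C * locM v ξ e := by
  classical
  obtain ⟨C, hC1, hC⟩ := exists_locM_comp (U := U) (v := v)
    ((k.row (QuotientGroup.mk 1)).toFinset.image Quotient.out)
  refine ⟨C, hC1, fun c e hce ξ => ?_⟩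
  induction c using QuotientGroup.induction_on with | H g =>
  set d : G2 L ⧸ U.loc v := g⁻¹ • e
  have hd : d ∈ (k.row (QuotientGroup.mk 1)).toFinset := by
    simp only [Set.Finite.mem_toFinset, Set.mem_ofPred_eq]
    rw [← k.inv g, smul_inv_smul, MulAction.Quotient.smul_mk, smul_eq_mul, mul_one]
    exact hce
  have he : e = QuotientGroup.mk (g * d.out) := by
    rw [← smul_eq_mul, ← MulAction.Quotient.smul_mk, QuotientGroup.out_eq', smul_inv_smul]
  rw [he]
  exact hC d.out (Finset.mem_image_of_mem _ hd) g ξ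

end FermatAgent.LT.Hyp
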