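import Mathlib
import Fermat.Agent.LT.Descent.Hyp.Local
import Fermat.Agent.LT.Descent.GlueInt

/-!
# The weight of the split torus on the finite part

Over a field with one infinite place and principal integers, every finite point is moved to the
slice at all places by a diagonal element, unique up to the finitely many units.
-/

set_option autoImplicit false

noncomputable section

open Matrix IsDedekindDomain NumberField Filter MeasureTheory
open scoped MatrixGroups

namespace FermatAgent.LT.Hyp

open Whit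

variable {K : Type*} [Field K] [NumberField K]

/-- Diagonal classes as a homomorphism. -/
def dGHom : Kˣ →* G2 K where
  toFun := dG
  map_one' := dG_one
  map_mul' := dG_mul

variable (K) in
/-- The split torus. -/
def diagG : Subgroup (G2 K) := (dGHom (K := K)).range

omit [NumberField K] in
/-- Membership in the split torus. -/
lemma mem_diagG {g : G2 K} : g ∈ diagG K ↔ ∃ α : Kˣ, dG α = g := Iff.rfl

omit [NumberField K] in
lemma dG_injective : Function.Injective (dG : Kˣ → G2 K) := by
  intro a b h
  obtain ⟨u, hu⟩ := Matrix.ProjGenLinGroup.mk_eq_mk_iff.mp h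
  have e := congrArg Units.val hu
  have e00 := congrFun (congrFun e 0) 0
  have e11 := congrFun (congrFun e 1) 1
  simp [GeneralLinearGroup.coe_scalar, Matrix.mul_apply, Fin.sum_univ_two] at e00 e11
  ext
  rw [← e00, e11]
  simp

variable (K) in
/-- The elements of norm one at all finite places. -/
def unitSet : Set Kˣ := {x | ∀ v : HeightOneSpectrum (𝓞 K), absV v (x : K) = 1}

lemma one_mem_unitSet : (1 : Kˣ) ∈ unitSet K := fun v => by simp

variable [Subsingleton (InfinitePlace K)]

lemma finite_unitSet : (unitSet K).Finite := by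
  refine Set.Finite.of_finite_image (f := fun x : Kˣ => (x : K)) ?_ (Units.val_injective.injOn)
  refine (finite_of_bounded (fun _ => (1 : ℝ)) (Eventually.of_forall fun _ => le_rfl) 1).subset ?_
  rintro _ ⟨x, hx, rfl⟩
  refine ⟨fun v => (hx v).le, fun w => ?_⟩
  have h := product_formula x.ne_zero
  rw [finprod_eq_one_of_forall_eq_one hx, mul_one, Finset.prod_eq_single w
    (fun w' _ h' => absurd (Subsingleton.elim w' w) h') (fun h' =>
      absurd (Finset.mem_univ _) h')] at h
  exact ((pow_eq_one_iff_of_nonneg (apply_nonneg w (x : K)) InfinitePlace.mult_ne_zero).mp h).le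

/-- The number of units. -/
def nUnits (K : Type*) [Field K] [NumberField K] : ℕ := Nat.card (unitSet K)

variable {U : Level K}

open Classical in
/-- The weight on the finite part. -/
def theta (z : FinCoset U) : ℝ :=
  if ∀ v, z.1 v ∈ slice U v then (nUnits K : ℝ)⁻¹ else 0

omit [Subsingleton (InfinitePlace K)] in
/-- The weight is nonnegative. -/
lemma theta_nonneg (z : FinCoset U) : 0 ≤ theta z := by
  unfold theta
  split_ifs <;> positivity

omit [Subsingleton (InfinitePlace K)] in
/-- An element of prescribed absolute values at all finite places. -/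
lemma exists_absV [IsPrincipalIdealRing (𝓞 K)] (f : HeightOneSpectrum (𝓞 K) → Kˣ)
    (hf : ∀ᶠ v in cofinite, absV v (f v : K) = 1) :
    ∃ x : Kˣ, ∀ v, absV v (x : K) = absV v (f v : K) := by
  classical
  have hgen : ∀ v : HeightOneSpectrum (𝓞 K), ∃ π : 𝓞 K, v.asIdeal = Ideal.span {π} :=
    fun v => ⟨_, (Ideal.span_singleton_generator v.asIdeal).symm⟩
  choose π hπ using hgen
  have hπ0 : ∀ v, (π v : K) ≠ 0 := fun v h => v.ne_bot (by
    rw [hπ v, Ideal.span_singleton_eq_bot]
    simpa using h)
  have hπne : ∀ v u : HeightOneSpectrum (𝓞 K), u ≠ v → absV u (π v : K) = 1 := by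
    intro v u hu
    rw [absV_eq_one_iff, RingOfIntegers.coe_eq_algebraMap,
      HeightOneSpectrum.valuation_of_algebraMap]
    refine HeightOneSpectrum.intValuation_eq_one_iff.mpr fun hmem => hu ?_
    refine HeightOneSpectrum.ext ((v.isMaximal.eq_of_le u.isPrime.ne_top ?_).symm)
    rw [hπ v, Ideal.span_le, Set.singleton_subset_iff]
    exact hmem
  have hπv : ∀ v : HeightOneSpectrum (𝓞 K), v.valuation K (π v : K) = WithZero.exp (-1 : ℤ) := by
    intro v
    rw [RingOfIntegers.coe_eq_algebraMap, HeightOneSpectrum.valuation_of_algebraMap]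
    exact v.intValuation_singleton (fun h => hπ0 v (by simp [h])) (hπ v)
  set s := (eventually_cofinite.mp hf).toFinset
  let n : HeightOneSpectrum (𝓞 K) → ℤ := fun v => -WithZero.log (v.valuation K (f v : K))
  refine ⟨∏ v ∈ s, Units.mk0 (π v : K) (hπ0 v) ^ n v, fun v => ?_⟩
  simp only [Units.coe_prod, Units.val_zpow_eq_zpow_val, Units.val_mk0, map_prod, map_zpow₀]
  by_cases hv : v ∈ s
  · rw [Finset.prod_eq_single v (fun u _ hu => by rw [hπne u v (Ne.symm hu), _root_.one_zpow])
      fun h => absurd hv h]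
    have e : v.valuation K ((π v : K) ^ n v) = v.valuation K (f v : K) := by
      rw [map_zpow₀, hπv, ← WithZero.exp_zsmul]
      simp [n, WithZero.exp_log]
    rw [← map_zpow₀]
    simp only [absV, HeightOneSpectrum.adicAbv_def, e]
  · rw [Finset.prod_eq_one fun u hu => by rw [hπne u v fun h => hv (h ▸ hu), _root_.one_zpow]]
    have : absV v (f v : K) = 1 := by simpa [s] using hv
    exact this.symm

variable [IsTotallyComplex K]

omit [IsTotallyComplex K] in
omit [Subsingleton (InfinitePlace K)] in
/-- Local heights are absolute values. -/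
lemma exists_absV_eq_locM {v : HeightOneSpectrum (𝓞 K)} (c : G2 K ⧸ U.loc v) :
    ∃ α : Kˣ, absV v (α : K) = locM v e1 c := by
  induction c using QuotientGroup.induction_on with | H g₀ =>
  obtain ⟨g, rfl⟩ := ProjGenLinGroup.mk_surjective g₀
  obtain ⟨i, hi⟩ : ∃ i : Fin 2, vecAbs v ((e1 : Fin 2 → K) ᵥ* g.val) =
      absV v (((e1 : Fin 2 → K) ᵥ* g.val) i) := by
    rcases max_choice (absV v (((e1 : Fin 2 → K) ᵥ* g.val) 0))
      (absV v (((e1 : Fin 2 → K) ᵥ* g.val) 1)) with h | h
    exacts [⟨0, h⟩, ⟨1, h⟩]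
  have hne : ((e1 : Fin 2 → K) ᵥ* g.val) i ≠ 0 := fun h0 => by
    have := locM_pos v e1_ne_zero (QuotientGroup.mk (ProjGenLinGroup.mk g) : G2 K ⧸ U.loc v)
    rw [locM_mk, locMGL, hi, h0, map_zero] at this
    simp at this
  exact ⟨Units.mk0 (((e1 : Fin 2 → K) ᵥ* g.val) i ^ 2 / g.val.det)
    (div_ne_zero (pow_ne_zero _ hne) (GeneralLinearGroup.det g).ne_zero),
    by simp [locM_mk, locMGL, hi]⟩

omit [IsTotallyComplex K] in
/-- The weight sums to one along the torus. -/
theorem hasSum_theta [IsPrincipalIdealRing (𝓞 K)] (z : FinCoset U) :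
    HasSum (fun h : diagG K => theta ((h : G2 K) • z)) 1 := by
  classical
  choose f hf using fun v => exists_absV_eq_locM (z.1 v)
  obtain ⟨x₀, hx₀⟩ := exists_absV f (by
    filter_upwards [eventually_locM_eq_one e1_ne_zero z] with v hv
    rw [hf, hv])
  let e : Kˣ ≃ diagG K := Equiv.ofBijective (fun x => ⟨dG x, x, rfl⟩)
    ⟨fun a b h => dG_injective (congrArg Subtype.val h), fun ⟨g, α, hα⟩ => ⟨α, Subtype.ext hα⟩⟩
  rw [← e.hasSum_iff]
  have hiff : ∀ x : Kˣ, (∀ v, ((dG x : G2 K) • z).1 v ∈ slice U v) ↔ x * x₀⁻¹ ∈ unitSet K := by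
    intro x
    refine forall_congr' fun v => ?_
    show locM v e1 ((dG x : G2 K) • z.1 v) = 1 ↔ _
    rw [locM_e1_dG, ← hf, ← hx₀, Units.val_mul, map_mul, Units.val_inv_eq_inv_val, map_inv₀]
    have h1 : absV v (x : K) ≠ 0 := by simp
    have h2 : absV v (x₀ : K) ≠ 0 := by simp
    rw [div_eq_one_iff_eq h1, mul_inv_eq_one₀ h2]
    exact eq_comm
  set S := (finite_unitSet (K := K)).toFinset.map ⟨fun u => u * x₀, mul_left_injective x₀⟩
  have hS : ∀ x : Kˣ, x ∈ S ↔ x * x₀⁻¹ ∈ unitSet K := fun x => by
    simp only [S, Finset.mem_map, Set.Finite.mem_toFinset, Function.Embedding.coeFn_mk]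
    exact ⟨fun ⟨a, ha, e⟩ => by rwa [← e, mul_inv_cancel_right], fun h => ⟨_, h, by simp⟩⟩
  have hsum := hasSum_sum_of_ne_finset_zero (s := S) (L := SummationFilter.unconditional _)
    (f := fun x : Kˣ => theta ((dG x : G2 K) • z)) fun x hx => by
      unfold theta
      rw [if_neg fun h => hx ((hS x).mpr ((hiff x).mp h))]
  have htot : ∑ x ∈ S, theta ((dG x : G2 K) • z) = 1 := by
    rw [Finset.sum_congr rfl fun x hx => show theta ((dG x : G2 K) • z) = (nUnits K : ℝ)⁻¹ from
      if_pos ((hiff x).mpr ((hS x).mp hx)), Finset.sum_const, Finset.card_map, nsmul_eq_mul]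
    rw [nUnits, Nat.card_eq_card_finite_toFinset finite_unitSet, mul_inv_cancel₀]
    exact_mod_cast (Finset.card_pos.mpr ⟨1, by simpa using one_mem_unitSet⟩).ne'
  rw [htot] at hsum
  exact hsum

variable {L : Type*} [Field L] [NumberField L] [Algebra K L]

/-- The weight of the torus on the base space. -/
def baseWt [IsPrincipalIdealRing (𝓞 K)] (X : TwistCtx K L) : TwistCtx.BaseWt X (diagG K) where
  θ y := theta y.2
  meas := (measurable_of_countable (fun z : FinCoset X.UK => theta z)).comp measurable_snd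
  nonneg _ := theta_nonneg _
  sum_eq := ae_of_all _ fun y => hasSum_theta y.2

end FermatAgent.LT.Hyp
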