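import Mathlib
import Fermat.Agent.LT.Descent.GlueingMatch
import Fermat.Agent.LT.Descent.Hyp.Weight

/-!
# Classes with two rational eigenlines

They are the classes of the diagonal matrices; the torus of such a matrix is the diagonal group
and its representatives above are diagonal.
-/

set_option autoImplicit false

noncomputable section

open Matrix IsDedekindDomain NumberField
open scoped MatrixGroups

namespace FermatAgent.LT.Hyp

open Whit TwistCtx

variable {K L : Type*} [Field K] [NumberField K] [Field L] [NumberField L] [Algebra K L]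

variable (K) in
/-- Classes below with two rational eigenlines. -/
def hypK : Set (G2 K) := {δ | HasLine δ ∧ ¬IsUnip δ}

/-- The diagonal classes are stable. -/
lemma stable_hypK (X : TwistCtx K L) : X.σK.Stable (hypK K) := fun g c (hc : _ ∧ _) => by
  show HasLine (g * c * g⁻¹) ∧ ¬IsUnip (g * c * g⁻¹)
  rwa [hasLine_conj, isUnip_conj]

omit [NumberField K] [NumberField L] in
/-- Lifts preserve and reflect unipotence. -/
lemma isUnip_map_iff (d : G2 K) : IsUnip (g2Map (algebraMap K L) d) ↔ IsUnip d := by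
  obtain ⟨D, rfl⟩ := ProjGenLinGroup.mk_surjective d
  rw [ProjGenLinGroup.map_mk, isUnip_mk, isUnip_mk]
  simp only [det_map, trace_map]
  rw [← map_pow, ← map_ofNat (algebraMap K L) 4, ← map_mul]
  exact (algebraMap K L).injective.eq_iff

omit [NumberField K] in
/-- Non-trivial diagonal elements are hyperbolic. -/
lemma dG_mem_hypK {a : Kˣ} (ha : (a : K) ≠ 1) : (dG a : G2 K) ∈ hypK K := by
  refine ⟨hasLine_upper (by simp), fun h => ha ?_⟩
  rw [isUnip_mk] at h
  simp [Matrix.trace_fin_two, Matrix.det_fin_two] at h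
  have h2 : ((a : K) - 1) ^ 2 = 0 := by linear_combination h
  exact sub_eq_zero.mp (pow_eq_zero_iff two_ne_zero |>.mp h2)

omit [NumberField K] in
/-- An element with two rational eigenlines is conjugate to a diagonal one other than the
identity. -/
theorem exists_diag {δ : G2 K} (hδ : δ ∈ hypK K) :
    ∃ a : Kˣ, (a : K) ≠ 1 ∧ ∃ g : G2 K, g * δ * g⁻¹ = dG a := by
  obtain ⟨hl, hu⟩ := hδ
  obtain ⟨h, rfl⟩ := ProjGenLinGroup.mk_surjective δ
  rw [isUnip_mk] at hu
  obtain ⟨ξ, hξ, p, hp⟩ := hasLine_mk.mp hl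
  set q := h.val.trace - p with hq
  have hp0 : (h.val - p • (1 : Matrix (Fin 2) (Fin 2) K)).det = 0 :=
    Matrix.exists_vecMul_eq_zero_iff.mp
      ⟨ξ, hξ, by rw [Matrix.vecMul_sub, hp, Matrix.vecMul_smul, Matrix.vecMul_one, sub_self]⟩
  have hpq : h.val.det = p * q := by
    rw [hq]
    simp [Matrix.det_fin_two, Matrix.trace_fin_two] at hp0 ⊢
    linear_combination hp0
  obtain ⟨η, hη, e⟩ := Matrix.exists_vecMul_eq_zero_iff.mpr
    (show (h.val - q • (1 : Matrix (Fin 2) (Fin 2) K)).det = 0 by
      rw [hq]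
      simp [Matrix.det_fin_two, Matrix.trace_fin_two] at hp0 ⊢
      linear_combination hp0)
  rw [Matrix.vecMul_sub, Matrix.vecMul_smul, Matrix.vecMul_one, sub_eq_zero] at e
  have hne : p ≠ q := fun e' => hu (by
    rw [show h.val.trace = p + q by rw [hq]; ring, hpq, e']; ring)
  have hq0 : q ≠ 0 := fun e' => Matrix.GeneralLinearGroup.det_ne_zero h (by rw [hpq, e', mul_zero])
  have hp' : p ≠ 0 := fun e' => Matrix.GeneralLinearGroup.det_ne_zero h (by rw [hpq, e', zero_mul])
  set P : Matrix (Fin 2) (Fin 2) K := Matrix.of ![ξ, η]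
  have hP : P.det ≠ 0 := by
    intro h0
    obtain ⟨v, hv, hv0⟩ := Matrix.exists_vecMul_eq_zero_iff.mpr h0
    have hv' : v 0 • ξ + v 1 • η = 0 := by
      ext j
      have := congrFun hv0 j
      simpa [Matrix.vecMul, dotProduct, Fin.sum_univ_two, P] using this
    have h2 := congrArg (· ᵥ* h.val) hv'
    simp only [Matrix.add_vecMul, Matrix.smul_vecMul, hp, e, Matrix.zero_vecMul] at h2
    have h3 : (v 0 * (p - q)) • ξ = 0 := by
      have := congrArg₂ (· - ·) h2 (congrArg (q • ·) hv')
      simp only [smul_add, smul_zero, sub_zero] at this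
      rw [← this, smul_smul, smul_smul, smul_smul, smul_smul, mul_sub, sub_smul, mul_comm q (v 0),
        mul_comm q (v 1)]
      abel
    have hv00 : v 0 = 0 := by
      rcases smul_eq_zero.mp h3 with h4 | h4
      · exact (mul_eq_zero.mp h4).resolve_right (sub_ne_zero.mpr hne)
      · exact absurd h4 hξ
    rw [hv00, zero_smul, zero_add] at hv'
    have hv11 : v 1 = 0 := (smul_eq_zero.mp hv').resolve_right hη
    exact hv (funext fun i => by fin_cases i <;> assumption)
  set g := GeneralLinearGroup.mkOfDetNeZero P hP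
  refine ⟨Units.mk0 (p / q) (div_ne_zero hp' hq0), fun e' => hne ((div_eq_one_iff_eq hq0).mp e'),
    ProjGenLinGroup.mk g, ?_⟩
  have key : g * h = dB (Units.mk0 (p / q) (div_ne_zero hp' hq0)) * sc (Units.mk0 q hq0) * g := by
    apply Units.ext
    ext i j
    have h1 := congrFun hp j
    have h2 := congrFun e j
    fin_cases i <;>
      simp [g, P, GeneralLinearGroup.mkOfDetNeZero, Matrix.mul_apply, Fin.sum_univ_two,
        Matrix.vecMul, dotProduct] at h1 h2 ⊢
    · rw [h1]; field_simp
    · rw [h2]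
  rw [mul_inv_eq_iff_eq_mul, ← map_mul, key, map_mul, map_mul, ProjGenLinGroup.mk_scalar, mul_one]

/-- A matrix commuting with a diagonal one is diagonal. -/
lemma offdiag_of_commute {F : Type*} [Field F] {α : Fˣ} (hα : (α : F) ≠ 1) {g : GL (Fin 2) F}
    (h : Commute g (dB α)) : g.val 0 1 = 0 ∧ g.val 1 0 = 0 := by
  have e01 := congrArg (fun x : GL (Fin 2) F => x.val 0 1) h.eq
  have e10 := congrArg (fun x : GL (Fin 2) F => x.val 1 0) h.eq
  simp [dB, GeneralLinearGroup.mkOfDetNeZero, Matrix.mul_apply, Fin.sum_univ_two] at e01 e10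
  constructor
  · exact (mul_eq_zero.mp (show ((α : F) - 1) * g.val 0 1 = 0 by
      linear_combination -e01)).resolve_left
      (sub_ne_zero.mpr hα)
  · exact (mul_eq_zero.mp (show ((α : F) - 1) * g.val 1 0 = 0 by
      linear_combination e10)).resolve_left
      (sub_ne_zero.mpr hα)

/-- Diagonal matrices give diagonal classes. -/
lemma exists_dG_of_diag {F : Type*} [Field F] {g : GL (Fin 2) F}
    (h : g.val 0 1 = 0 ∧ g.val 1 0 = 0) :
    ∃ b : Fˣ, (ProjGenLinGroup.mk g : G2 F) = dG b := by
  have hd := Matrix.GeneralLinearGroup.det_ne_zero g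
  rw [Matrix.det_fin_two, h.1, zero_mul, sub_zero] at hd
  have h0 := left_ne_zero_of_mul hd
  have h1 := right_ne_zero_of_mul hd
  refine ⟨Units.mk0 (g.val 0 0 / g.val 1 1) (div_ne_zero h0 h1), ?_⟩
  have key : g = dB (Units.mk0 (g.val 0 0 / g.val 1 1) (div_ne_zero h0 h1)) *
      sc (Units.mk0 _ h1) := by
    apply Units.ext
    ext i j
    fin_cases i <;> fin_cases j <;> simp [dB, GeneralLinearGroup.mkOfDetNeZero, Matrix.mul_apply,
      Fin.sum_univ_two, h.1, h.2, h1]
  conv_lhs => rw [key]
  rw [map_mul, ProjGenLinGroup.mk_scalar, mul_one]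

omit [NumberField K] in
/-- The torus of a diagonal matrix is the diagonal group. -/
theorem torus_dB {a : Kˣ} (ha : (a : K) ≠ 1) : torus (dB a) = diagG K := by
  ext x
  obtain ⟨g, rfl⟩ := ProjGenLinGroup.mk_surjective x
  rw [mk_mem_torus_iff, mem_diagG]
  refine ⟨fun h => ?_, fun ⟨α, hα⟩ => ?_⟩
  · obtain ⟨b, hb⟩ := exists_dG_of_diag (offdiag_of_commute ha h)
    exact ⟨b, hb.symm⟩
  · refine mk_mem_torus_iff.mp ?_
    rw [← hα]
    exact mk_mem_torus_iff.mpr (by
      apply Units.ext
      ext i j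
      fin_cases i <;> fin_cases j <;> simp [Matrix.mul_apply, Fin.sum_univ_two, mul_comm])

omit [NumberField K] [NumberField L] in
/-- The lift of a diagonal matrix. -/
lemma upGL_dB (a : Kˣ) : upGL (L := L) (dB a) = dB (Units.map (algebraMap K L : K →* L) a) := by
  apply Units.ext
  ext i j
  fin_cases i <;> fin_cases j <;> simp

omit [NumberField K] [NumberField L] in
/-- The representatives of a diagonal matrix are diagonal. -/
theorem exists_dG_of_isRep {τ : L ≃+* L} {a : Kˣ} (ha : (a : K) ≠ 1) {Γ : GL (Fin 2) L}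
    (h : IsRep τ (dB a) Γ) : ∃ b : Lˣ, (ProjGenLinGroup.mk Γ : G2 L) = dG b := by
  refine exists_dG_of_diag (offdiag_of_commute (α := Units.map (algebraMap K L : K →* L) a) ?_ ?_)
  · exact fun e => ha ((algebraMap K L).injective (e.trans (map_one _).symm))
  · rw [← upGL_dB]
    exact h.comm

end FermatAgent.LT.Hyp
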