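import Mathlib
import Fermat.Agent.LT.Base.FundDomain

/-!
# The diagonal flow at infinity

An invariant function cut off by two opposite linear conditions integrates to itself on a slice
times the length of the interval cut out on the orbit.
-/

set_option autoImplicit false

noncomputable section

open Matrix IsDedekindDomain NumberField Filter MeasureTheory
open scoped MatrixGroups ENNReal

namespace FermatAgent.LT

variable {F : Type*} [Field F] [NumberField F]

/-- The real scaling. -/
def scaleG (s : ℝ) : GL (Fin 2) ℂ :=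
  GeneralLinearGroup.mkOfDetNeZero !![(Real.exp s : ℂ), 0; 0, 1] (by simp [Matrix.det_fin_two])

lemma scaleG_add (s t : ℝ) : scaleG (s + t) = scaleG s * scaleG t := by
  apply Units.ext
  ext i j
  fin_cases i <;> fin_cases j <;>
    simp [scaleG, GeneralLinearGroup.mkOfDetNeZero, Real.exp_add]

lemma scaleG_zero : scaleG 0 = 1 := by
  apply Units.ext
  ext i j
  fin_cases i <;> fin_cases j <;> simp [scaleG, GeneralLinearGroup.mkOfDetNeZero]

/-- The horizontal coordinate of a scaled point. -/
lemma scaleG_smul_z (s : ℝ) (p : H3) : (scaleG s • p).z = (Real.exp s : ℂ) * p.z := by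
  simp [scaleG, GeneralLinearGroup.mkOfDetNeZero, H3.smul_def, H3.act, H3.den]

/-- The height of a scaled point. -/
lemma scaleG_smul_t (s : ℝ) (p : H3) : (scaleG s • p).t = Real.exp s * p.t := by
  simp [scaleG, GeneralLinearGroup.mkOfDetNeZero, H3.smul_def, H3.act, H3.den, Matrix.det_fin_two]

/-- The flow. -/
def flowPt (s : ℝ) (p : InfPts F) : InfPts F := fun w => scaleG s • p w

omit [NumberField F] in
lemma flowPt_add (s t : ℝ) (p : InfPts F) : flowPt (s + t) p = flowPt s (flowPt t p) := by
  funext w
  simp [flowPt, scaleG_add, mul_smul]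

omit [NumberField F] in
lemma flowPt_zero (p : InfPts F) : flowPt 0 p = p := by
  funext w
  simp [flowPt, scaleG_zero]

lemma measurePreserving_flowPt (s : ℝ) :
    MeasurePreserving (flowPt (F := F) s) (Measure.pi fun _ => H3.vol)
    (Measure.pi fun _ => H3.vol) :=
  measurePreserving_pi (fun _ => H3.vol) (fun _ => H3.vol)
    (f := fun _ p => scaleG s • p) fun _ => H3.measurePreserving_smul _

omit [NumberField F] in
lemma measurable_flow : Measurable fun x : ℝ × InfPts F => flowPt x.1 x.2 := by
  refine measurable_pi_lambda _ fun w => ?_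
  have hc : Continuous fun y : ℝ × H3 => scaleG y.1 • y.2 := by
    refine H3.continuous_mk (f := fun y : ℝ × H3 => scaleG y.1 • y.2) ?_ ?_
    · simp only [scaleG_smul_z]
      exact (Complex.continuous_ofReal.comp (Real.continuous_exp.comp continuous_fst)).mul
        (H3.continuous_z.comp continuous_snd)
    · simp only [scaleG_smul_t]
      exact (Real.continuous_exp.comp continuous_fst).mul (H3.continuous_t.comp continuous_snd)
  exact hc.measurable.comp (f := fun x : ℝ × InfPts F => (x.1, x.2 w))
    (measurable_fst.prodMk ((measurable_pi_apply w).comp measurable_snd))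

open Classical in
/-- Along a flow moving two linear cut-offs oppositely, an invariant function cut off by both
integrates to itself on a slice of the flow times the length of the interval which the cut-offs
leave on the orbit. -/
theorem integral_flow {g : InfPts F → ℂ} {A B τ : InfPts F → ℝ} {c : ℝ} (hc : 0 < c)
    (hg : Measurable g) (hA : Measurable A) (hB : Measurable B) (hτ : Measurable τ)
    (hgi : ∀ s p, g (flowPt s p) = g p) (hτi : ∀ s p, τ (flowPt s p) = τ p + s)
    (hAi : ∀ s p, A (flowPt s p) = A p - c * s) (hBi : ∀ s p, B (flowPt s p) = B p + c * s)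
    (hint : Integrable (fun p =>
      g p * if τ p ∈ Set.Ico (0 : ℝ) 1 then ((max 0 ((A p + B p) / c) : ℝ) : ℂ) else 0)
      (Measure.pi fun _ => H3.vol)) :
    ∫ p, (if 0 ≤ A p ∧ 0 ≤ B p then g p else 0) ∂(Measure.pi fun _ : InfinitePlace F => H3.vol) =
      ∫ p, g p * (if τ p ∈ Set.Ico (0 : ℝ) 1 then ((max 0 ((A p + B p) / c) : ℝ) : ℂ) else 0)
        ∂(Measure.pi fun _ : InfinitePlace F => H3.vol) := by
  set μ := Measure.pi fun _ : InfinitePlace F => H3.vol
  set ind : InfPts F → ℂ := fun p => if 0 ≤ A p ∧ 0 ≤ B p then g p else 0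
  let e : ℝ × InfPts F → ℝ × InfPts F := fun x => (x.1, flowPt x.1 x.2)
  have he : MeasurePreserving e ((volume : Measure ℝ).prod μ) (volume.prod μ) :=
    MeasurePreserving.skew_product (μc := μ) (μd := μ)
      (g := fun (s : ℝ) (p : InfPts F) => flowPt s p)
      (MeasurePreserving.id (volume : Measure ℝ)) measurable_flow
      (ae_of_all _ fun s => (measurePreserving_flowPt s).map_eq)
  let Ψ : ℝ × InfPts F → ℂ := fun x => ind (flowPt (-x.1) x.2) *
    if τ x.2 ∈ Set.Ico (0 : ℝ) 1 then 1 else 0
  let Φ : ℝ × InfPts F → ℂ := fun x => ind x.2 * if τ x.2 + x.1 ∈ Set.Ico (0 : ℝ) 1 then 1 else 0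
  have hΦ : ∀ x, Ψ (e x) = Φ x := fun x => by
    show ind (flowPt (-x.1) (flowPt x.1 x.2)) * _ = _
    rw [← flowPt_add, neg_add_cancel, flowPt_zero, hτi]
  have hindm : Measurable ind := Measurable.ite
    ((measurableSet_le measurable_const hA).inter (measurableSet_le measurable_const hB)) hg
    measurable_const
  have hΨm : Measurable Ψ :=
    (hindm.comp (measurable_flow.comp (measurable_fst.neg.prodMk measurable_snd))).mul
      (Measurable.ite ((hτ.comp measurable_snd) measurableSet_Ico)
        measurable_const measurable_const)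
  have hset : ∀ q, {s : ℝ | 0 ≤ A (flowPt (-s) q) ∧ 0 ≤ B (flowPt (-s) q)} =
      Set.Icc (-A q / c) (B q / c) := by
    intro q
    ext s
    simp only [Set.mem_ofPred_eq, hAi, hBi, Set.mem_Icc, div_le_iff₀ hc, le_div_iff₀ hc]
    constructor <;> rintro ⟨h1, h2⟩ <;> constructor <;> linarith
  have hlen : ∀ q, volume.real (Set.Icc (-A q / c) (B q / c)) = max 0 ((A q + B q) / c) := by
    intro q
    rw [Real.volume_real_Icc, max_comm]
    congr 1
    ring
  have hrow : ∀ q s, Ψ (s, q) = (g q * if τ q ∈ Set.Ico (0 : ℝ) 1 then 1 else 0) *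
      (Set.Icc (-A q / c) (B q / c)).indicator (fun _ => (1 : ℂ)) s := by
    intro q s
    simp only [Ψ, ind, hgi]
    by_cases h : 0 ≤ A (flowPt (-s) q) ∧ 0 ≤ B (flowPt (-s) q)
    · rw [if_pos h, Set.indicator_of_mem (by rw [← hset]; exact h)]
      ring
    · rw [if_neg h, Set.indicator_of_notMem (by rw [← hset]; exact h)]
      ring
  have hΨi : Integrable Ψ ((volume : Measure ℝ).prod μ) := by
    rw [integrable_prod_iff' hΨm.aestronglyMeasurable]
    refine ⟨ae_of_all _ fun q => ?_, ?_⟩
    · simp only [hrow]
      exact ((integrableOn_const (measure_Icc_lt_top.ne)).integrable_indicator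
        measurableSet_Icc).const_mul _
    · refine hint.norm.congr (ae_of_all _ fun q => ?_)
      simp only [hrow, norm_mul, norm_indicator_eq_indicator_norm, norm_one]
      rw [integral_const_mul, integral_indicator_const _ measurableSet_Icc, hlen, smul_eq_mul,
        mul_one]
      split_ifs <;> simp [abs_of_nonneg]
  have hΦi : Integrable Φ ((volume : Measure ℝ).prod μ) :=
    (he.integrable_comp_of_integrable hΨi).congr (ae_of_all _ hΦ)
  have h1 : ∫ x, Φ x ∂(volume : Measure ℝ).prod μ = ∫ p, ind p ∂μ := by
    rw [integral_prod_symm _ hΦi]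
    refine integral_congr_ae (ae_of_all _ fun p => ?_)
    simp only [Φ]
    rw [integral_const_mul,
      show (fun s : ℝ => if τ p + s ∈ Set.Ico (0 : ℝ) 1 then (1 : ℂ) else 0) =
        (Set.Ico (-τ p) (1 - τ p)).indicator fun _ => (1 : ℂ) by
        funext s
        simp only [Set.indicator_apply, Set.mem_Ico]
        exact if_congr ⟨fun h => ⟨by linarith, by linarith⟩,
          fun h => ⟨by linarith, by linarith⟩⟩ rfl rfl,
      integral_indicator_const _ measurableSet_Ico, Real.volume_real_Ico]
    simp
  have h2 : ∫ x, Ψ x ∂(volume : Measure ℝ).prod μ =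
      ∫ p,
      g p * (if τ p ∈ Set.Ico (0 : ℝ) 1 then ((max 0 ((A p + B p) / c) : ℝ) : ℂ) else 0) ∂μ := by
    rw [integral_prod_symm _ hΨi]
    refine integral_congr_ae (ae_of_all _ fun q => ?_)
    simp only [hrow]
    rw [integral_const_mul, integral_indicator_const _ measurableSet_Icc, hlen, Complex.real_smul,
      mul_one]
    split_ifs <;> simp
  rw [← h1, ← h2]
  conv_rhs => rw [← he.map_eq, integral_map he.measurable.aemeasurable hΨm.aestronglyMeasurable]
  exact integral_congr_ae (ae_of_all _ fun x => (hΦ x).symm)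

end FermatAgent.LT
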