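import Mathlib
import Fermat.Agent.LT.Descent.Hyp.Flow
import Fermat.Agent.LT.Descent.Hyp.Trunc
import Fermat.Agent.LT.Descent.InfComp

/-!
# Truncated integrals of products invariant along the diagonal flow

For a product of a flow invariant function at infinity, supported near the axis, and a finitely
supported function of the finite part, the integral over the truncated space is affine in the
logarithm of the truncation parameter, with coefficients given by the heights of the two fixed
lines.
-/

set_option autoImplicit false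

noncomputable section

open Matrix IsDedekindDomain NumberField Filter MeasureTheory
open scoped MatrixGroups ENNReal Topology

namespace FermatAgent.LT.Uni

variable {F : Type*} [Field F] [NumberField F]

/-- Integrals of finitely many slices. -/
theorem integral_slices {U : Level F} {ι : Type*} (I : Finset ι) (x : ι → FinCoset U)
    [∀ (y : Space U) i, Decidable (y.2 = x i)]
    (φ : ι → InfPts F → ℂ) (hφ : ∀ i ∈ I, Integrable (φ i) (Measure.pi fun _ => H3.vol)) :
    Integrable (fun y : Space U => ∑ i ∈ I, if y.2 = x i then φ i y.1 else 0) (Space.vol U) ∧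
      ∫ y, ∑ i ∈ I, (if y.2 = x i then φ i y.1 else 0) ∂Space.vol U =
        ∑ i ∈ I, ∫ p, φ i p ∂(Measure.pi fun _ => H3.vol) := by
  classical
  have hxi : ∀ i ∈ I, Integrable (fun y : Space U => if y.2 = x i then φ i y.1 else 0)
      (Space.vol U) := by
    intro i hi
    rw [Space.vol]
    have h1 : Integrable (fun c : FinCoset U => if c = x i then (1 : ℂ) else 0) Measure.count := by
      refine ⟨(measurable_of_countable _).aestronglyMeasurable, ?_⟩
      rw [HasFiniteIntegral, lintegral_count, tsum_eq_single (x i) fun c hc => by simp [hc]]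
      simp
    refine ((hφ i hi).mul_prod h1).congr (ae_of_all _ fun y => ?_)
    dsimp only
    split_ifs <;> simp
  refine ⟨integrable_finsetSum I hxi, ?_⟩
  rw [integral_finsetSum I hxi]
  refine Finset.sum_congr rfl fun i hi => ?_
  rw [Space.vol, integral_prod_symm _ (Space.vol.eq_def U ▸ hxi i hi),
    integral_countable (Space.vol.eq_def U ▸ hxi i hi).integral_prod_right, tsum_eq_single (x i)]
  · simp [measureReal_def]
  · intro c hc
    simp [hc]

end FermatAgent.LT.Uni

namespace FermatAgent.LT.Hyp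

variable {F : Type*} [Field F] [NumberField F] {U : Level F}

/-- A function at infinity invariant along the diagonal flow and supported near the axis. -/
structure AxisFun (F : Type*) [Field F] [NumberField F] where
  /-- the function -/
  g : InfPts F → ℂ
  meas : Measurable g
  /-- a bound for the function -/
  C : ℝ
  bound : ∀ p, ‖g p‖ ≤ C
  inv : ∀ s p, g (flowPt s p) = g p
  /-- the radius of the support around the axis -/
  R : ℝ
  R_one : 1 ≤ R
  supp : ∀ p, g p ≠ 0 → ∀ w, ‖(p w).z‖ ≤ R * (p w).t ∧ ∀ w', (p w).t ≤ R * (p w').t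

/-- The logarithmic height of the bottom line at infinity. -/
def inf1 (p : InfPts F) : ℝ := ∑ w, -(2 * Real.log (p w).t)

/-- The logarithmic height of the top line at infinity. -/
def inf0 (p : InfPts F) : ℝ :=
  ∑ w, 2 * Real.log ((p w).t + Complex.normSq (p w).z / (p w).t)

/-- The logarithm of the finite height of a line. -/
def finLog (ξ : Fin 2 → F) (x : FinCoset U) : ℝ := Real.log (∏ᶠ v, locM v ξ (x.1 v))

/-- The coordinate of the flow. -/
def tau (w₀ : InfinitePlace F) (p : InfPts F) : ℝ := Real.log (p w₀).t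

omit [NumberField F] in
lemma tau_flow (w₀ : InfinitePlace F) (s : ℝ) (p : InfPts F) :
    tau w₀ (flowPt s p) = tau w₀ p + s := by
  simp only [tau, flowPt, scaleG_smul_t]
  rw [Real.log_mul (Real.exp_ne_zero s) (p w₀).t_pos.ne', Real.log_exp, add_comm]

lemma inf1_flow (s : ℝ) (p : InfPts F) :
    inf1 (flowPt s p) = inf1 p - 2 * Fintype.card (InfinitePlace F) * s := by
  simp only [inf1, flowPt, scaleG_smul_t]
  rw [show (2 : ℝ) * Fintype.card (InfinitePlace F) * s = ∑ _w : InfinitePlace F, 2 * s by
    simp; ring, ← Finset.sum_sub_distrib]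
  refine Finset.sum_congr rfl fun w _ => ?_
  rw [Real.log_mul (Real.exp_ne_zero s) (p w).t_pos.ne', Real.log_exp]
  ring

lemma inf0_flow (s : ℝ) (p : InfPts F) :
    inf0 (flowPt s p) = inf0 p + 2 * Fintype.card (InfinitePlace F) * s := by
  simp only [inf0, flowPt, scaleG_smul_t, scaleG_smul_z]
  rw [show (2 : ℝ) * Fintype.card (InfinitePlace F) * s = ∑ _w : InfinitePlace F, 2 * s by
    simp; ring, ← Finset.sum_add_distrib]
  refine Finset.sum_congr rfl fun w _ => ?_
  have ht := (p w).t_pos
  have hn := Complex.normSq_nonneg (p w).z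
  have he : Real.exp s * (p w).t + Complex.normSq ((Real.exp s : ℂ) * (p w).z) /
      (Real.exp s * (p w).t) = Real.exp s * ((p w).t + Complex.normSq (p w).z / (p w).t) := by
    rw [Complex.normSq_mul, Complex.normSq_ofReal]
    field_simp
  rw [he, Real.log_mul (Real.exp_ne_zero s) (by positivity), Real.log_exp]
  ring

/-- The archimedean height is measurable. -/
lemma measurable_inf1 : Measurable (inf1 (F := F)) :=
  Finset.measurable_sum _ fun w _ =>
    ((H3.continuous_t.measurable.comp (measurable_pi_apply w)).log.const_mul 2).neg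

lemma measurable_inf0 : Measurable (inf0 (F := F)) :=
  Finset.measurable_sum _ fun w _ =>
    (((H3.continuous_t.measurable.comp (measurable_pi_apply w)).add
      ((Complex.continuous_normSq.measurable.comp (H3.continuous_z.measurable.comp
        (measurable_pi_apply w))).div (H3.continuous_t.measurable.comp
          (measurable_pi_apply w)))).log).const_mul 2

omit [NumberField F] in
lemma measurable_tau (w₀ : InfinitePlace F) : Measurable (tau w₀) :=
  (H3.continuous_t.measurable.comp (measurable_pi_apply w₀)).log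

section Totally

variable [IsTotallyComplex F]

omit [IsTotallyComplex F] in
lemma finprod_locM_pos {ξ : Fin 2 → F} (hξ : ξ ≠ 0) (x : FinCoset U) :
    0 < ∏ᶠ v, locM v ξ (x.1 v) :=
  finprod_induction (fun y : ℝ => 0 < y) one_pos (fun _ _ => mul_pos) fun v => locM_pos v hξ _

/-- The logarithmic height splits. -/
lemma log_M_e1 (y : Space U) : Real.log (Space.M e1 y) = inf1 y.1 + finLog e1 y.2 := by
  rw [M_e1_eq, Real.log_mul (Finset.prod_ne_zero_iff.mpr fun w _ =>
    pow_ne_zero _ (inv_ne_zero (y.1 w).t_pos.ne')) (finprod_locM_pos e1_ne_zero y.2).ne',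
    Real.log_prod fun w _ => pow_ne_zero _ (inv_ne_zero (y.1 w).t_pos.ne')]
  congr 1
  refine Finset.sum_congr rfl fun w _ => ?_
  rw [Real.log_pow, Real.log_inv]
  push_cast
  ring

lemma log_M_e0 (y : Space U) : Real.log (Space.M e0 y) = inf0 y.1 + finLog e0 y.2 := by
  have ha : ∀ w : InfinitePlace F, archQ (fun i => w.embedding ((e0 : Fin 2 → F) i)) (y.1 w) =
      (y.1 w).t + Complex.normSq (y.1 w).z / (y.1 w).t := fun w => by simp [archQ, e0]
  have hne : ∀ w : InfinitePlace F,
      (y.1 w).t + Complex.normSq (y.1 w).z / (y.1 w).t ≠ 0 := fun w => by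
    have ht := (y.1 w).t_pos
    have hn := Complex.normSq_nonneg (y.1 w).z
    positivity
  unfold Space.M
  simp only [ha, IsTotallyComplex.mult_eq]
  rw [Real.log_mul (Finset.prod_ne_zero_iff.mpr fun w _ => pow_ne_zero _ (hne w))
      (finprod_locM_pos e0_ne_zero y.2).ne',
    Real.log_prod fun w _ => pow_ne_zero _ (hne w)]
  congr 1
  refine Finset.sum_congr rfl fun w _ => ?_
  rw [Real.log_pow]
  push_cast
  ring

lemma log_sum_nonneg (y : Space U) :
    0 ≤ inf1 y.1 + finLog e1 y.2 + (inf0 y.1 + finLog e0 y.2) := by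
  rw [← log_M_e1, ← log_M_e0, ← Real.log_mul (Space.M_pos e1_ne_zero y).ne'
    (Space.M_pos e0_ne_zero y).ne']
  exact Real.log_nonneg (Space.one_le_M_mul (by simp [e1, e0]) y)

end Totally

/-- A measurable bounded function supported in a box is integrable. -/
lemma integrable_of_box {f : InfPts F → ℂ} (hf : Measurable f) {C a b : ℝ} (hC : ∀ p, ‖f p‖ ≤ C)
    (ha : 0 < a) (hs : ∀ p, f p ≠ 0 → ∀ w, a ≤ (p w).t ∧ (p w).t ≤ b ∧ ‖(p w).z‖ ≤ b) :
    Integrable f (Measure.pi fun _ => H3.vol) := by
  set ρ₀ := 1 + (b ^ 2 + b ^ 2 + 1) / (2 * a)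
  set S : Set (InfPts F) := Set.univ.pi fun _ => {q | H3.coshDist H3.base q ≤ ρ₀}
  have hS : ∀ p, f p ≠ 0 → p ∈ S := by
    intro p hp w _
    obtain ⟨h1, h2, h3⟩ := hs p hp w
    have ht := (p w).t_pos
    show H3.coshDist H3.base (p w) ≤ ρ₀
    simp only [H3.coshDist, H3.base, zero_sub, Complex.normSq_neg, mul_one, ρ₀]
    refine add_le_add le_rfl ?_
    have hz : Complex.normSq (p w).z ≤ b ^ 2 := by
      rw [Complex.normSq_eq_norm_sq]
      exact pow_le_pow_left₀ (norm_nonneg _) h3 2
    have hb : 0 ≤ b := ht.le.trans h2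
    have ht2 : (1 - (p w).t) ^ 2 ≤ b ^ 2 + 1 := by
      nlinarith [mul_le_mul h2 h2 ht.le hb]
    calc (Complex.normSq (p w).z + (1 - (p w).t) ^ 2) / (2 * (p w).t)
        ≤ (b ^ 2 + b ^ 2 + 1) / (2 * (p w).t) := by
          refine div_le_div_of_nonneg_right (by linarith) (by linarith)
      _ ≤ _ := div_le_div_of_nonneg_left (by positivity) (by linarith) (by linarith)
  have hSv : (Measure.pi fun _ : InfinitePlace F => H3.vol) S ≠ ⊤ := by
    rw [Measure.pi_pi]
    exact (ENNReal.prod_lt_top fun _ _ => H3.vol_ball_lt_top _ _).ne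
  have hSm : MeasurableSet S := MeasurableSet.univ_pi fun _ => InfKer.measurableSet_ball _ _
  rw [← integrableOn_iff_integrable_of_support_subset (s := S) fun p hp => hS p hp]
  exact Measure.integrableOn_of_bounded hSv hf.aestronglyMeasurable (ae_of_all _ hC)

namespace AxisFun

variable (A : AxisFun F)

/-- On the support, the product of the two heights at infinity is bounded. -/
lemma le_sum (p : InfPts F) (hp : A.g p ≠ 0) :
    inf1 p + inf0 p ≤ Fintype.card (InfinitePlace F) * (2 * Real.log (1 + A.R ^ 2)) := by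
  rw [inf1, inf0, ← Finset.sum_add_distrib, ← nsmul_eq_mul, ← Finset.card_univ]
  refine Finset.sum_le_card_nsmul _ _ _ fun w _ => ?_
  have ht := (p w).t_pos
  have hn := Complex.normSq_nonneg (p w).z
  have hz := ((A.supp p hp w).1)
  have h1 : ((p w).t + Complex.normSq (p w).z / (p w).t) / (p w).t ≤ 1 + A.R ^ 2 := by
    rw [Complex.normSq_eq_norm_sq, div_le_iff₀ ht, add_mul, one_mul]
    refine add_le_add le_rfl ?_
    rw [div_le_iff₀ ht]
    nlinarith [mul_le_mul hz hz (norm_nonneg _) (mul_nonneg (zero_le_one.trans A.R_one) ht.le)]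
  have h2 : 0 < (p w).t + Complex.normSq (p w).z / (p w).t := by positivity
  have := Real.log_le_log (by positivity) h1
  rw [Real.log_div h2.ne' ht.ne'] at this
  linarith

/-- Bounded logarithmic height and bounded ratios confine to a box. -/
lemma box (p : InfPts F) (hp : A.g p ≠ 0) {w₀ : InfinitePlace F} {M : ℝ}
    (h : |Real.log (p w₀).t| ≤ M) (w : InfinitePlace F) :
    Real.exp (-M) / A.R ≤ (p w).t ∧ (p w).t ≤ A.R * (A.R * Real.exp M) ∧
      ‖(p w).z‖ ≤ A.R * (A.R * Real.exp M) := by
  have hR := A.R_one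
  obtain ⟨h1, h2⟩ := abs_le.mp h
  have hlo : Real.exp (-M) ≤ (p w₀).t := by
    rw [← Real.exp_log (p w₀).t_pos]; exact Real.exp_le_exp.mpr h1
  have hhi : (p w₀).t ≤ Real.exp M := by
    rw [← Real.exp_log (p w₀).t_pos]; exact Real.exp_le_exp.mpr h2
  have ha := (A.supp p hp w₀).2 w
  have hb := (A.supp p hp w).2 w₀
  have hz := (A.supp p hp w).1
  have hup : (p w).t ≤ A.R * Real.exp M := hb.trans (mul_le_mul_of_nonneg_left hhi (by linarith))
  refine ⟨?_, hup.trans (le_mul_of_one_le_left (by positivity) hR), ?_⟩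
  · rw [div_le_iff₀' (by linarith)]
    exact hlo.trans ha
  · exact hz.trans (mul_le_mul_of_nonneg_left hup (by linarith))

/-- The mass on a period of the flow. -/
def I0 (w₀ : InfinitePlace F) : ℂ :=
  ∫ p, A.g p * (if tau w₀ p ∈ Set.Ico (0 : ℝ) 1 then 1 else 0) ∂(Measure.pi fun _ => H3.vol)

/-- The logarithmic mass on a period of the flow. -/
def I1 (w₀ : InfinitePlace F) : ℂ :=
  ∫ p, A.g p * (if tau w₀ p ∈ Set.Ico (0 : ℝ) 1 then ((inf1 p + inf0 p : ℝ) : ℂ) else 0)
    ∂(Measure.pi fun _ => H3.vol)

lemma integrable_slice (w₀ : InfinitePlace F) {φ : InfPts F → ℂ} (hφ : Measurable φ) {C : ℝ}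
    (hC : ∀ p, A.g p ≠ 0 → ‖φ p‖ ≤ C) :
    Integrable (fun p => A.g p * (if tau w₀ p ∈ Set.Ico (0 : ℝ) 1 then φ p else 0))
      (Measure.pi fun _ => H3.vol) := by
  refine integrable_of_box (C := max A.C 0 * max C 0) (a := Real.exp (-1) / A.R)
    (b := A.R * (A.R * Real.exp 1))
    (A.meas.mul (Measurable.ite ((measurable_tau w₀) measurableSet_Ico) hφ measurable_const))
    (fun p => ?_) (div_pos (Real.exp_pos _) (zero_lt_one.trans_le A.R_one)) fun p hp w => ?_
  · by_cases hg : A.g p = 0
    · simp [hg]; positivity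
    rw [norm_mul]
    refine mul_le_mul ((A.bound p).trans (le_max_left _ _)) ?_ (norm_nonneg _) (le_max_right _ _)
    split_ifs
    · exact (hC p hg).trans (le_max_left _ _)
    · simp
  · have h1 := left_ne_zero_of_mul hp
    have h2 := right_ne_zero_of_mul hp
    have h3 : tau w₀ p ∈ Set.Ico (0 : ℝ) 1 := by
      by_contra h
      exact h2 (if_neg h)
    refine A.box p h1 (w₀ := w₀) (M := 1) ?_ w
    rw [abs_le]
    exact ⟨by linarith [h3.1, show tau w₀ p = Real.log (p w₀).t from rfl],
      by linarith [h3.2, show tau w₀ p = Real.log (p w₀).t from rfl]⟩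

/-- The flow invariant function cut off where the line `e1` or `e0` is shorter than `ε`. -/
private def window (ε : ℝ) (x : FinCoset U) (p : InfPts F) : ℂ :=
  if 0 ≤ inf1 p + finLog e1 x - Real.log ε ∧ 0 ≤ inf0 p + finLog e0 x - Real.log ε then A.g p else 0

/-- The cut off function is measurable. -/
private lemma measurable_window (ε : ℝ) (x : FinCoset U) : Measurable (A.window ε x) :=
  Measurable.ite
    ((measurableSet_le measurable_const ((measurable_inf1.add_const _).sub_const _)).inter
      (measurableSet_le measurable_const ((measurable_inf0.add_const _).sub_const _)))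
    A.meas measurable_const

/-- On the support, the height at infinity is that of one place up to a bounded error. -/
private lemma abs_inf1_add_le (p : InfPts F) (hp : A.g p ≠ 0) (w₀ : InfinitePlace F) :
    |inf1 p + 2 * Fintype.card (InfinitePlace F) * Real.log (p w₀).t| ≤
      2 * Fintype.card (InfinitePlace F) * Real.log A.R := by
  have hR := A.R_one
  have hdev : ∀ w, |Real.log (p w).t - Real.log (p w₀).t| ≤ Real.log A.R := fun w => by
    have e1' := Real.log_le_log (p w).t_pos ((A.supp p hp w).2 w₀)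
    have e2' := Real.log_le_log (p w₀).t_pos ((A.supp p hp w₀).2 w)
    rw [Real.log_mul (by linarith) (p w₀).t_pos.ne'] at e1'
    rw [Real.log_mul (by linarith) (p w).t_pos.ne'] at e2'
    rw [abs_le]
    constructor <;> linarith
  rw [inf1, show 2 * (Fintype.card (InfinitePlace F) : ℝ) * Real.log (p w₀).t =
    ∑ _w : InfinitePlace F, 2 * Real.log (p w₀).t by simp; ring, ← Finset.sum_add_distrib]
  refine (Finset.abs_sum_le_sum_abs _ _).trans ((Finset.sum_le_card_nsmul _ _ (2 * Real.log A.R)
    fun w _ => ?_).trans (le_of_eq (by simp; ring)))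
  have := abs_le.mp (hdev w)
  rw [abs_le]
  constructor <;> linarith

/-- The cut off function lives in a box, so it is integrable. -/
private lemma integrable_window (ε : ℝ) (x : FinCoset U) (w₀ : InfinitePlace F) :
    Integrable (A.window ε x) (Measure.pi fun _ => H3.vol) := by
  set n : ℝ := (Fintype.card (InfinitePlace F) : ℝ)
  have hn : 0 < n := Nat.cast_pos.mpr Fintype.card_pos
  set K : ℝ := |finLog e1 x| + |finLog e0 x| + 2 * |Real.log ε| +
    n * (2 * Real.log (1 + A.R ^ 2)) + 2 * n * Real.log A.R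
  refine integrable_of_box (C := max A.C 0) (a := Real.exp (-(K / (2 * n))) / A.R)
    (b := A.R * (A.R * Real.exp (K / (2 * n)))) (A.measurable_window ε x) (fun p => ?_)
    (div_pos (Real.exp_pos _) (zero_lt_one.trans_le A.R_one)) fun p hp w => ?_
  · simp only [window]
    split_ifs
    · exact (A.bound p).trans (le_max_left _ _)
    · simp
  simp only [window, ne_eq, ite_eq_right_iff, not_forall] at hp
  obtain ⟨⟨h1, h2⟩, hg⟩ := hp
  refine A.box p hg (w₀ := w₀) (M := K / (2 * n)) ?_ w
  obtain ⟨h4, h5⟩ := abs_le.mp (A.abs_inf1_add_le p hg w₀)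
  have h3 := A.le_sum p hg
  have h6 : 0 ≤ n * (2 * Real.log (1 + A.R ^ 2)) :=
    mul_nonneg hn.le (mul_nonneg zero_le_two
      (Real.log_nonneg (le_add_of_nonneg_right (sq_nonneg _))))
  have h7 : |2 * n * Real.log (p w₀).t| ≤ K := by
    rw [abs_le]
    constructor <;> linarith [le_abs_self (finLog e1 x), neg_abs_le (finLog e1 x),
      abs_nonneg (finLog e0 x), abs_nonneg (finLog e1 x), le_abs_self (finLog e0 x),
      neg_abs_le (finLog e0 x), le_abs_self (Real.log ε), neg_abs_le (Real.log ε)]
  rw [le_div_iff₀ (by positivity), mul_comm]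
  rwa [abs_mul, abs_of_pos (by positivity : (0 : ℝ) < 2 * n)] at h7

variable [IsTotallyComplex F]

/-- Where the two lines have bounded product of heights, the truncation is the window. -/
private lemma mul_trunc_eq {ε : ℝ} (hε : 0 < ε) {L : ℝ} (hεL : ε ^ 2 * Real.exp L ≤ 1)
    {x : FinCoset U}
    (hL : Fintype.card (InfinitePlace F) * (2 * Real.log (1 + A.R ^ 2)) +
      |finLog e1 x + finLog e0 x| ≤ L) (c : ℂ) (p : InfPts F) :
    A.g p * c * (Space.trunc ε (U := U) (p, x) : ℂ) = c * A.window ε x p := by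
  by_cases hg : A.g p = 0
  · simp [window, hg]
  have hP : Space.M e1 (U := U) (p, x) * Space.M e0 (U := U) (p, x) ≤ Real.exp L := by
    rw [← Real.log_le_iff_le_exp (mul_pos (Space.M_pos e1_ne_zero _) (Space.M_pos e0_ne_zero _)),
      Real.log_mul (Space.M_pos e1_ne_zero _).ne' (Space.M_pos e0_ne_zero _).ne', log_M_e1,
      log_M_e0]
    linarith [A.le_sum p hg, le_abs_self (finLog e1 x + finLog e0 x)]
  rw [Space.trunc_eq_two hε hP hεL, mul_comm (A.g p), mul_assoc]
  have hiff : ∀ ξ : Fin 2 → F, ξ ≠ 0 → (ε ≤ Space.M ξ (U := U) (p, x) ↔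
      0 ≤ Real.log (Space.M ξ (U := U) (p, x)) - Real.log ε) := fun ξ hξ => by
    rw [sub_nonneg, Real.log_le_log_iff hε (Space.M_pos hξ _)]
  congr 1
  simp only [window, hiff _ e1_ne_zero, hiff _ e0_ne_zero, log_M_e1, log_M_e0]
  split_ifs <;> simp

/-- Integrating along the flow: the window is affine in the height parameters. -/
private lemma integral_window {ε : ℝ} (hε : 0 < ε) (hε1 : ε ≤ 1) (x : FinCoset U)
    (w₀ : InfinitePlace F) :
    ∫ p, A.window ε x p ∂(Measure.pi fun _ => H3.vol) =
      (A.I1 w₀ + ((finLog e1 x + finLog e0 x - 2 * Real.log ε : ℝ) : ℂ) * A.I0 w₀) /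
        (2 * Fintype.card (InfinitePlace F) : ℂ) := by
  classical
  set n : ℝ := (Fintype.card (InfinitePlace F) : ℝ)
  set a : InfPts F → ℝ := fun p => inf1 p + finLog e1 x - Real.log ε
  set b : InfPts F → ℝ := fun p => inf0 p + finLog e0 x - Real.log ε
  set κ : ℝ := finLog e1 x + finLog e0 x - 2 * Real.log ε
  have hn : 0 < n := Nat.cast_pos.mpr Fintype.card_pos
  have hab : ∀ p, max 0 ((a p + b p) / (2 * n)) = (inf1 p + inf0 p + κ) / (2 * n) := by
    intro p
    have h := log_sum_nonneg (U := U) (p, x)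
    have hl : Real.log ε ≤ 0 := Real.log_nonpos hε.le hε1
    rw [max_eq_right (div_nonneg (by simp only [a, b]; linarith) (by positivity))]
    congr 1
    simp only [a, b, κ]
    ring
  have i1 := A.integrable_slice w₀ (φ := fun p => ((inf1 p + inf0 p : ℝ) : ℂ))
    (Complex.measurable_ofReal.comp (measurable_inf1.add measurable_inf0))
    (C := |n * (2 * Real.log (1 + A.R ^ 2))| + |finLog e1 x + finLog e0 x|) fun p hp => by
      rw [Complex.norm_real, Real.norm_eq_abs, abs_le]
      constructor <;> linarith [A.le_sum p hp, log_sum_nonneg (U := U) (p, x),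
        le_abs_self (n * (2 * Real.log (1 + A.R ^ 2))), le_abs_self (finLog e1 x + finLog e0 x),
        abs_nonneg (n * (2 * Real.log (1 + A.R ^ 2))), abs_nonneg (finLog e1 x + finLog e0 x)]
  have i0 := A.integrable_slice w₀ (φ := fun _ => (1 : ℂ)) measurable_const (C := 1)
    fun p _ => by simp
  have key : ∀ p, A.g p * (if tau w₀ p ∈ Set.Ico (0 : ℝ) 1 then
        ((max 0 ((a p + b p) / (2 * n)) : ℝ) : ℂ) else 0) =
      (2 * Fintype.card (InfinitePlace F) : ℂ)⁻¹ *
        (A.g p * (if tau w₀ p ∈ Set.Ico (0 : ℝ) 1 then ((inf1 p + inf0 p : ℝ) : ℂ) else 0) +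
          (κ : ℂ) * (A.g p * (if tau w₀ p ∈ Set.Ico (0 : ℝ) 1 then 1 else 0))) := by
    intro p
    split_ifs
    · rw [hab]
      simp only [n]
      push_cast
      ring
    · simp
  have hf := integral_flow (g := A.g) (A := a) (B := b) (τ := tau w₀) (c := 2 * n)
    (by positivity) A.meas ((measurable_inf1.add_const _).sub_const _)
    ((measurable_inf0.add_const _).sub_const _) (measurable_tau w₀) A.inv (tau_flow w₀)
    (fun s p => by simp only [a, inf1_flow, n]; ring)
    (fun s p => by simp only [b, inf0_flow, n]; ring)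
    (by simp only [key]; exact (i1.add (i0.const_mul _)).const_mul _)
  refine hf.trans ?_
  simp only [key]
  rw [integral_const_mul, integral_add i1 (i0.const_mul _), integral_const_mul]
  simp only [I0, I1, div_eq_inv_mul]

open Classical in
/-- **The truncated integral**: for small `ε` the integral of the product over the truncated
space is a finite sum, affine in `log ε` and in the logarithmic heights of the two fixed lines. -/
theorem integral_trunc (w₀ : InfinitePlace F) (h : FinCoset U → ℂ) (S : Finset (FinCoset U))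
    (hS : ∀ x ∉ S, h x = 0) :
    ∀ᶠ ε in 𝓝[>] (0 : ℝ),
      Integrable (fun y : Space U => A.g y.1 * h y.2 * (Space.trunc ε y : ℂ)) (Space.vol U) ∧
      ∫ y, A.g y.1 * h y.2 * (Space.trunc ε y : ℂ) ∂Space.vol U =
        ∑ x ∈ S, h x * ((A.I1 w₀ +
          ((finLog e1 x + finLog e0 x - 2 * Real.log ε : ℝ) : ℂ) * A.I0 w₀) /
            (2 * Fintype.card (InfinitePlace F) : ℂ)) := by
  set L : ℝ := Fintype.card (InfinitePlace F) * (2 * Real.log (1 + A.R ^ 2)) +
    ∑ x ∈ S, |finLog e1 x + finLog e0 x|
  filter_upwards [Ioo_mem_nhdsGT (lt_min one_pos (Real.exp_pos (-L / 2)))] with ε hε'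
  obtain ⟨hε, hεlt⟩ := hε'
  have hε1 : ε ≤ 1 := hεlt.le.trans (min_le_left _ _)
  have hεL : ε ^ 2 * Real.exp L ≤ 1 := by
    calc ε ^ 2 * Real.exp L ≤ Real.exp (-L / 2) ^ 2 * Real.exp L := by
          gcongr; exact hεlt.le.trans (min_le_right _ _)
      _ = 1 := by rw [← Real.exp_nat_mul, ← Real.exp_add]; simp; ring
  have hpt : ∀ y : Space U, A.g y.1 * h y.2 * (Space.trunc ε y : ℂ) =
      ∑ x ∈ S, (if y.2 = x then h x * A.window ε x y.1 else 0) := by
    rintro ⟨p, x⟩
    rw [Finset.sum_ite_eq]
    split_ifs with hx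
    · have h2 := Finset.single_le_sum (f := fun x => |finLog e1 x + finLog e0 x|)
        (fun _ _ => abs_nonneg _) hx
      exact A.mul_trunc_eq hε hεL (by simp only [L] at h2 ⊢; linarith) (h x) p
    · rw [hS x hx, mul_zero, zero_mul]
  obtain ⟨hi, he⟩ := Uni.integral_slices S id (fun x p => h x * A.window ε x p)
    fun x _ => (A.integrable_window ε x w₀).const_mul (h x)
  refine ⟨hi.congr (ae_of_all _ fun y => (hpt y).symm), ?_⟩
  rw [integral_congr_ae (ae_of_all _ hpt)]
  refine he.trans (Finset.sum_congr rfl fun x _ => ?_)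
  rw [integral_const_mul, A.integral_window hε hε1 x w₀]

end AxisFun

end FermatAgent.LT.Hyp
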