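import Mathlib
import Fermat.Agent.LT.Descent.Hyp.Term
import Fermat.Agent.LT.Descent.Hyp.Local
import Fermat.Agent.LT.Descent.KerPair

/-!
# The archimedean factors of a diagonal class

The twisted product at infinity and the composite kernel of the norm are invariant along the flow
and supported near the axis; their masses on a period agree.
-/

set_option autoImplicit false

noncomputable section

open Matrix IsDedekindDomain NumberField Filter MeasureTheory
open scoped MatrixGroups ENNReal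

namespace FermatAgent.LT

namespace H3

/-- Near a point close to the axis all points are close to the axis. -/
lemma ratio_of_near (ρ R : ℝ) : ∃ R' : ℝ, 0 ≤ R' ∧ ∀ p q : H3, coshDist p q ≤ ρ →
    ‖p.z‖ ≤ R * p.t → ‖q.z‖ ≤ R' * q.t ∧ q.t ≤ R' * p.t ∧ p.t ≤ R' * q.t := by
  set Λ := max (2 * ρ + 2) 1
  refine ⟨(max R 0 + max (2 * ρ) 0 + 1) * Λ ^ 2 + Λ,
    add_nonneg (mul_nonneg (by positivity) (sq_nonneg _)) (zero_le_one.trans (le_max_right _ _)),
    fun p q h hp => ?_⟩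
  obtain ⟨h1, h2, h3⟩ := coord_bounds_of_coshDist h
  have hpt := p.t_pos
  have hqt := q.t_pos
  have hΛ : 1 ≤ Λ := le_max_right _ _
  have h2' : p.t ≤ Λ * q.t := h2.trans (mul_le_mul_of_nonneg_right (le_max_left _ _) hqt.le)
  have h1' : q.t ≤ Λ * p.t := h1.trans (mul_le_mul_of_nonneg_right (le_max_left _ _) hpt.le)
  set R₀ := (max R 0 + max (2 * ρ) 0 + 1) * Λ ^ 2
  have hR₀ : 0 ≤ R₀ := by positivity
  refine ⟨?_, ?_, ?_⟩
  · have hd : ‖q.z - p.z‖ ≤ (max (2 * ρ) 0 + 1) * Λ * q.t := by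
      have hsq : ‖q.z - p.z‖ ^ 2 ≤ ((max (2 * ρ) 0 + 1) * Λ * q.t) ^ 2 := by
        rw [← Complex.normSq_eq_norm_sq, ← Complex.normSq_neg, neg_sub]
        refine h3.trans ?_
        have hA : 0 ≤ max (2 * ρ) 0 := le_max_right _ _
        calc 2 * ρ * (p.t * q.t) ≤ max (2 * ρ) 0 * (Λ * q.t * q.t) :=
              mul_le_mul (le_max_left _ _) (mul_le_mul_of_nonneg_right h2' hqt.le)
                (by positivity) hA
          _ ≤ (max (2 * ρ) 0 + 1) ^ 2 * (Λ ^ 2 * (q.t * q.t)) := by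
              refine mul_le_mul (by nlinarith) ?_ (by positivity) (by positivity)
              rw [mul_assoc]
              exact mul_le_mul_of_nonneg_right (by nlinarith) (by positivity)
          _ = _ := by ring
      exact le_of_abs_le_abs_of_sq hsq (norm_nonneg _) (by positivity)
    have hz : ‖q.z‖ ≤ ‖q.z - p.z‖ + ‖p.z‖ := by
      simpa using norm_add_le (q.z - p.z) p.z
    have hp' : ‖p.z‖ ≤ max R 0 * (Λ * q.t) :=
      hp.trans (mul_le_mul (le_max_left _ _) h2' hpt.le (le_max_right _ _))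
    have hsq : Λ ≤ Λ ^ 2 := by nlinarith
    calc ‖q.z‖ ≤ (max (2 * ρ) 0 + 1) * Λ * q.t + max R 0 * (Λ * q.t) := by linarith
      _ = (max R 0 + max (2 * ρ) 0 + 1) * Λ * q.t := by ring
      _ ≤ R₀ * q.t := mul_le_mul_of_nonneg_right
          (mul_le_mul_of_nonneg_left hsq (by positivity)) hqt.le
      _ ≤ _ := mul_le_mul_of_nonneg_right (le_add_of_nonneg_right (by linarith)) hqt.le
  · exact h1'.trans (mul_le_mul_of_nonneg_right (le_add_of_nonneg_left hR₀) hpt.le)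
  · exact h2'.trans (mul_le_mul_of_nonneg_right (le_add_of_nonneg_left hR₀) hqt.le)
where
  le_of_abs_le_abs_of_sq {a b : ℝ} (h : a ^ 2 ≤ b ^ 2) (ha : 0 ≤ a) (hb : 0 ≤ b) : a ≤ b :=
    (pow_le_pow_iff_left₀ ha hb two_ne_zero).mp h

end H3

namespace Hyp

open Whit

variable {F : Type*} [Field F]

/-- The action of a diagonal class. -/
lemma map_dG_smul (f : F →+* ℂ) (α : Fˣ) (p : H3) :
    (ProjGenLinGroup.map f (dG α : G2 F) • p).z = f α * p.z ∧
      (ProjGenLinGroup.map f (dG α : G2 F) • p).t = ‖f α‖ * p.t := by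
  rw [dG, ProjGenLinGroup.map_mk, H3.mk_smul]
  constructor
  · simp [H3.smul_def, H3.act, H3.den]
  · simp [H3.smul_def, H3.act, H3.den, Matrix.det_fin_two]

lemma map_dG_scale (f : F →+* ℂ) (α : Fˣ) (s : ℝ) (p : H3) :
    ProjGenLinGroup.map f (dG α : G2 F) • scaleG s • p =
      scaleG s • ProjGenLinGroup.map f (dG α : G2 F) • p := by
  apply H3.ext
  · rw [(map_dG_smul f α _).1, scaleG_smul_z, scaleG_smul_z, (map_dG_smul f α _).1]
    ring
  · rw [(map_dG_smul f α _).2, scaleG_smul_t, scaleG_smul_t, (map_dG_smul f α _).2]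
    ring

lemma flip_scale (s : ℝ) (p : H3) : H3.flip (scaleG s • p) = scaleG s • H3.flip p := by
  apply H3.ext
  · rw [scaleG_smul_z]
    show (starRingEnd ℂ) (scaleG s • p).z = _ * (starRingEnd ℂ) p.z
    rw [scaleG_smul_z, map_mul, Complex.conj_ofReal]
  · simp [H3.flip, scaleG_smul_t]

lemma twistPt_scale {E : Type*} [Field E] (φ : E →+* F) (w : InfinitePlace F) (s : ℝ) (p : H3) :
    twistPt φ w (scaleG s • p) = scaleG s • twistPt φ w p := by
  unfold twistPt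
  split_ifs
  · rfl
  · exact flip_scale s p

/-- Twisting preserves coordinates up to conjugation. -/
lemma twistPt_coord {E : Type*} [Field E] (φ : E →+* F) (w : InfinitePlace F) (p : H3) :
    ‖(twistPt φ w p).z‖ = ‖p.z‖ ∧ (twistPt φ w p).t = p.t := by
  unfold twistPt
  split_ifs <;> simp [H3.flip]

open TwistCtx

variable {K L : Type*} [Field K] [NumberField K] [Field L] [NumberField L] [Algebra K L]
  (X : TwistCtx K L)

omit [NumberField K] in
lemma near_axis {a : Kˣ} (ha : (a : K) ≠ 1) (f : K →+* ℂ) (ρ : ℝ) :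
    ∃ R : ℝ, ∀ p : H3, H3.coshDist (ProjGenLinGroup.map f (dG a : G2 K) • p) p ≤ ρ →
      ‖p.z‖ ≤ R * p.t := by
  set c := f a
  have hc : c - 1 ≠ 0 := sub_ne_zero.mpr fun h => ha (f.injective (h.trans (map_one f).symm))
  refine ⟨Real.sqrt (max (2 * ρ * ‖c‖) 0) / ‖c - 1‖, fun p hp => ?_⟩
  obtain ⟨-, -, h3⟩ := H3.coord_bounds_of_coshDist hp
  rw [(map_dG_smul f a p).1, (map_dG_smul f a p).2, show f a * p.z - p.z = (c - 1) * p.z by ring,
    Complex.normSq_eq_norm_sq, norm_mul] at h3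
  rw [div_mul_eq_mul_div, le_div_iff₀ (norm_pos_iff.mpr hc), mul_comm ‖p.z‖]
  have h4 : (‖c - 1‖ * ‖p.z‖) ^ 2 ≤ (Real.sqrt (max (2 * ρ * ‖c‖) 0) * p.t) ^ 2 := by
    rw [mul_pow (Real.sqrt _), Real.sq_sqrt (le_max_right _ _)]
    calc (‖c - 1‖ * ‖p.z‖) ^ 2 ≤ 2 * ρ * (‖f a‖ * p.t * p.t) := h3
      _ = (2 * ρ * ‖c‖) * p.t ^ 2 := by ring
      _ ≤ _ := mul_le_mul_of_nonneg_right (le_max_left _ _) (sq_nonneg _)
  have := p.t_pos
  exact (pow_le_pow_iff_left₀ (by positivity) (by positivity) two_ne_zero).mp h4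

variable (k : InfKer)

/-- The twisted product at infinity. -/
def twProd (γ : G2 L) (p : InfPts L) : ℂ :=
  ∏ w, k.k ((γ • LevelHom.infMap (X.τ : L →+* L) p) w) (p w)

/-- The composite kernel at the norm. -/
def cubeAt (δ : G2 K) (p : InfPts K) : ℂ := (k.comp (k.comp k)).k ((δ • p) X.v) (p X.v)

variable {X}

lemma exists_R_cube {a : Kˣ} (ha : (a : K) ≠ 1) :
    ∃ R : ℝ, 1 ≤ R ∧ ∀ p, cubeAt X k (dG a) p ≠ 0 → ∀ w,
      ‖(p w).z‖ ≤ R * (p w).t ∧ ∀ w', (p w).t ≤ R * (p w').t := by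
  obtain ⟨R, hR⟩ := near_axis ha X.v.embedding (k.comp (k.comp k)).ρ
  refine ⟨max R 1, le_max_right _ _, fun p hp w => ?_⟩
  obtain rfl := X.uniq w
  refine ⟨(hR _ ((k.comp (k.comp k)).supp _ _ hp)).trans
    (mul_le_mul_of_nonneg_right (le_max_left _ _) (p X.v).t_pos.le), fun w' => ?_⟩
  obtain rfl := X.uniq w'
  exact le_mul_of_one_le_left (p X.v).t_pos.le (le_max_right _ _)

/-- The composite kernel at the norm as a function near the axis. -/
def axisK {a : Kˣ} (ha : (a : K) ≠ 1) : AxisFun K where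
  g := cubeAt X k (dG a)
  meas := by
    unfold cubeAt
    exact (k.comp (k.comp k)).meas.comp ((((measurable_pi_apply X.v).comp
      (measurable_const_smul (dG a : G2 K))) : Measurable fun p : InfPts K =>
        ((dG a : G2 K) • p) X.v).prodMk
        (measurable_pi_apply X.v))
  C := (k.comp (k.comp k)).C
  bound p := (k.comp (k.comp k)).bound _ _
  inv s p := by
    simp only [cubeAt, infPts_smul_apply, flowPt, map_dG_scale]
    exact (k.comp (k.comp k)).inv _ _ _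
  R := (exists_R_cube k ha).choose
  R_one := (exists_R_cube k ha).choose_spec.1
  supp := (exists_R_cube k ha).choose_spec.2

lemma step_coord (γ : Lˣ) (i : Fin 3) (q : H3) :
    ‖(X.T.step i (dG γ) q).z‖ = ‖(X.T.e i).embedding γ‖ * ‖q.z‖ ∧
      (X.T.step i (dG γ) q).t = ‖(X.T.e i).embedding γ‖ * q.t := by
  show ‖(ProjGenLinGroup.map (X.T.e i).embedding (dG γ : G2 L) • X.T.tw i q).z‖ = _ ∧
    (ProjGenLinGroup.map (X.T.e i).embedding (dG γ : G2 L) • X.T.tw i q).t = _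
  rw [(map_dG_smul _ γ _).1, (map_dG_smul _ γ _).2, norm_mul]
  obtain ⟨h1, h2⟩ := twistPt_coord (X.τ : L →+* L) (X.T.e i) q
  exact ⟨congrArg _ h1, congrArg _ h2⟩

lemma coshDist_step (γ : G2 L) (i : Fin 3) (p q : H3) :
    H3.coshDist (X.T.step i γ p) (X.T.step i γ q) = H3.coshDist p q := by
  induction γ using Matrix.ProjGenLinGroup.induction_on with | mk g =>
  show H3.coshDist (X.T.act i _ (X.T.tw i p)) (X.T.act i _ (X.T.tw i q)) = _
  simp only [InfCycle.act, ProjGenLinGroup.map_mk, H3.mk_smul, H3.coshDist_smul]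
  unfold InfCycle.tw twistPt
  split_ifs
  · rfl
  · exact H3.coshDist_flip p q

lemma twProd_eq (γ : G2 L) (p : InfPts L) :
    twProd X k γ p = k.k (X.T.step 0 γ (p (X.T.e 1))) (p (X.T.e 0)) *
      k.k (X.T.step 1 γ (p (X.T.e 2))) (p (X.T.e 1)) *
        k.k (X.T.step 2 γ (p (X.T.e 0))) (p (X.T.e 2)) :=
  X.prod_twisted k.k γ p

/-- Where the twisted product does not vanish the three steps are short, and so is their loop. -/
lemma near_of_twProd_ne_zero {γ : G2 L} {p : InfPts L} (hp : twProd X k γ p ≠ 0) :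
    H3.coshDist (X.T.step 0 γ (p (X.T.e 1))) (p (X.T.e 0)) ≤ k.ρ ∧
    H3.coshDist (X.T.step 1 γ (p (X.T.e 2))) (p (X.T.e 1)) ≤ k.ρ ∧
    H3.coshDist (X.T.step 2 γ (p (X.T.e 0))) (p (X.T.e 2)) ≤ k.ρ ∧
    H3.coshDist (X.T.act 0 (X.T.nrm γ) (p (X.T.e 0))) (p (X.T.e 0)) ≤
      1 + H3.nearC (1 + H3.nearC (max k.ρ 0) * (H3.nearC (max k.ρ 0) * 3)) *
        (H3.nearC (max k.ρ 0) * 3) := by
  rw [twProd_eq] at hp
  have h0 := k.supp _ _ (left_ne_zero_of_mul (left_ne_zero_of_mul hp))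
  have h1 := k.supp _ _ (right_ne_zero_of_mul (left_ne_zero_of_mul hp))
  have h2 := k.supp _ _ (right_ne_zero_of_mul hp)
  refine ⟨h0, h1, h2, ?_⟩
  rw [← X.T.twisted_comp]
  have h1' : H3.coshDist (X.T.step 0 γ (X.T.step 1 γ (p (X.T.e 2))))
      (X.T.step 0 γ (p (X.T.e 1))) ≤ max k.ρ 0 := by
    rw [coshDist_step]; exact h1.trans (le_max_left _ _)
  have h2' : H3.coshDist (X.T.step 0 γ (X.T.step 1 γ (X.T.step 2 γ (p (X.T.e 0)))))
      (X.T.step 0 γ (X.T.step 1 γ (p (X.T.e 2)))) ≤ max k.ρ 0 := by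
    rw [coshDist_step, coshDist_step]; exact h2.trans (le_max_left _ _)
  exact (H3.coshDist_trans h2' (H3.coshDist_trans h1' (h0.trans (le_max_left _ _))) :)

lemma exists_R_tw {a : Kˣ} (ha : (a : K) ≠ 1) {b : Lˣ}
    (hN : X.T.nrm (dG b) = incl (dG a : G2 K)) :
    ∃ R : ℝ, 1 ≤ R ∧ ∀ p, twProd X k (dG b) p ≠ 0 → ∀ w,
      ‖(p w).z‖ ≤ R * (p w).t ∧ ∀ w', (p w).t ≤ R * (p w').t := by
  set a' : Lˣ := Units.map (algebraMap K L : K →* L) a
  have hinc : incl (K := K) (L := L) (dG a : G2 K) = dG a' := by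
    simp only [incl, g2Map, dG, ProjGenLinGroup.map_mk]
    congr 1
    apply Units.ext
    ext i j
    fin_cases i <;> fin_cases j <;> simp [a']
  set ρ := max k.ρ 0
  set ρ₂ := 1 + H3.nearC ρ * (H3.nearC ρ * 3)
  set ρ₃ := 1 + H3.nearC ρ₂ * (H3.nearC ρ * 3)
  set e := (X.T.e 0).embedding
  obtain ⟨R₀, hR₀⟩ := near_axis ha (e.comp (algebraMap K L)) ρ₃
  obtain ⟨R₁, hR₁0, hR₁⟩ := H3.ratio_of_near k.ρ R₀
  obtain ⟨R₂, hR₂0, hR₂⟩ := H3.ratio_of_near k.ρ R₁
  set n : Fin 3 → ℝ := fun i => ‖(X.T.e i).embedding (b : L)‖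
  have hn : ∀ i, 0 < n i := fun i => norm_pos_iff.mpr (by simp)
  set R := max 1 (max R₀ (max R₁ (max R₂ (max (R₁ * n 2) (max (R₂ * n 1) (max (R₁ / n 2)
    (max (R₂ / n 1) (max ((R₂ * n 1) * (R₁ * n 2)) ((R₁ / n 2) * (R₂ / n 1))))))))))
  have hpos : ∀ i, 0 ≤ n i := fun i => (hn i).le
  refine ⟨R, le_max_left _ _, fun p hp => ?_⟩
  obtain ⟨-, h1, h2, hloop⟩ := near_of_twProd_ne_zero k hp
  set p0 := p (X.T.e 0)
  set p1 := p (X.T.e 1)
  set p2 := p (X.T.e 2)
  rw [hN, hinc] at hloop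
  have hz0 : ‖p0.z‖ ≤ R₀ * p0.t := by
    refine hR₀ p0 ?_
    rw [InfCycle.act, ← hinc, incl] at hloop
    convert hloop using 3
    simp only [g2Map, dG, ProjGenLinGroup.map_mk]
    rfl
  obtain ⟨s2z, s2t⟩ := step_coord (X := X) b 2 p0
  obtain ⟨s1z, s1t⟩ := step_coord (X := X) b 1 p2
  obtain ⟨a1, a2, a3⟩ := hR₁ _ p2 h2 (by
    rw [s2z, s2t, mul_left_comm]; exact mul_le_mul_of_nonneg_left hz0 (norm_nonneg _))
  obtain ⟨b1, b2, b3⟩ := hR₂ _ p1 h1 (by
    rw [s1z, s1t, mul_left_comm]; exact mul_le_mul_of_nonneg_left a1 (norm_nonneg _))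
  rw [s2t] at a2 a3
  rw [s1t] at b2 b3
  have ht0 := p0.t_pos
  have ht1 := p1.t_pos
  have ht2 := p2.t_pos
  change p2.t ≤ R₁ * (n 2 * p0.t) at a2
  change n 2 * p0.t ≤ R₁ * p2.t at a3
  change p1.t ≤ R₂ * (n 1 * p2.t) at b2
  change n 1 * p2.t ≤ R₂ * p1.t at b3
  have c20 : p2.t ≤ (R₁ * n 2) * p0.t := by linarith
  have c02 : p0.t ≤ (R₁ / n 2) * p2.t := by
    rw [div_mul_eq_mul_div, le_div_iff₀ (hn 2)]; linarith
  have c12 : p1.t ≤ (R₂ * n 1) * p2.t := by linarith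
  have c21 : p2.t ≤ (R₂ / n 1) * p1.t := by
    rw [div_mul_eq_mul_div, le_div_iff₀ (hn 1)]; linarith
  have c10 : p1.t ≤ (R₂ * n 1) * (R₁ * n 2) * p0.t := by
    rw [mul_assoc]; exact c12.trans (mul_le_mul_of_nonneg_left c20 (mul_nonneg hR₂0 (hpos 1)))
  have c01 : p0.t ≤ (R₁ / n 2) * (R₂ / n 1) * p1.t := by
    rw [mul_assoc]; exact c02.trans (mul_le_mul_of_nonneg_left c21 (div_nonneg hR₁0 (hpos 2)))
  have hle : ∀ x : ℝ, (x = R₀ ∨ x = R₁ ∨ x = R₂ ∨ x = 1 ∨ x = R₁ * n 2 ∨ x = R₂ * n 1 ∨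
      x = R₁ / n 2 ∨ x = R₂ / n 1 ∨ x = (R₂ * n 1) * (R₁ * n 2) ∨ x = (R₁ / n 2) * (R₂ / n 1)) →
      x ≤ R := by
    intro x hx
    simp only [R, le_max_iff]
    rcases hx with rfl | rfl | rfl | rfl | rfl | rfl | rfl | rfl | rfl | rfl <;> simp
  intro w
  obtain ⟨i, rfl⟩ := X.T.e.surjective w
  have key : ∀ {u s : ℝ} (x : ℝ), u ≤ x * s → x ≤ R → 0 ≤ s → u ≤ R * s := fun x h hx hs =>
    h.trans (mul_le_mul_of_nonneg_right hx hs)
  refine ⟨?_, fun w' => ?_⟩
  · fin_cases i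
    · exact key R₀ hz0 (hle _ (Or.inl rfl)) ht0.le
    · exact key R₂ b1 (hle _ (by simp)) ht1.le
    · exact key R₁ a1 (hle _ (by simp)) ht2.le
  · obtain ⟨j, rfl⟩ := X.T.e.surjective w'
    fin_cases i <;> fin_cases j
    · exact key 1 (one_mul p0.t).ge (hle _ (by simp)) ht0.le
    · exact key _ c01 (hle _ (by simp)) ht1.le
    · exact key _ c02 (hle _ (by simp)) ht2.le
    · exact key _ c10 (hle _ (by simp)) ht0.le
    · exact key 1 (one_mul p1.t).ge (hle _ (by simp)) ht1.le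
    · exact key _ c12 (hle _ (by simp)) ht2.le
    · exact key _ c20 (hle _ (by simp)) ht0.le
    · exact key _ c21 (hle _ (by simp)) ht1.le
    · exact key 1 (one_mul p2.t).ge (hle _ (by simp)) ht2.le

/-- The twisted product as a function near the axis. -/
def axisL {a : Kˣ} (ha : (a : K) ≠ 1) {b : Lˣ} (hN : X.T.nrm (dG b) = incl (dG a : G2 K)) :
    AxisFun L where
  g := twProd X k (dG b)
  meas := by
    have hm : Measurable fun p : InfPts L => LevelHom.infMap (X.τ : L →+* L) p :=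
      measurable_pi_lambda _ fun w =>
        (measurePreserving_twistPt _ _).measurable.comp (measurable_pi_apply _)
    unfold twProd
    exact Finset.measurable_prod _ fun w _ => k.meas.comp
      ((((measurable_pi_apply w).comp (measurable_const_smul (dG b : G2 L))).comp hm).prodMk
        (measurable_pi_apply w))
  C := k.C ^ Fintype.card (InfinitePlace L)
  bound p := by
    rw [twProd, norm_prod, ← Finset.card_univ, ← Finset.prod_const]
    exact Finset.prod_le_prod (fun w _ => norm_nonneg _) fun w _ => k.bound _ _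
  inv s p := by
    refine Finset.prod_congr rfl fun w _ => ?_
    have e : LevelHom.infMap (X.τ : L →+* L) (flowPt s p) w =
        scaleG s • LevelHom.infMap (X.τ : L →+* L) p w := twistPt_scale _ w s _
    simp only [infPts_smul_apply, e, map_dG_scale]
    exact k.inv _ _ _
  R := (exists_R_tw k ha hN).choose
  R_one := (exists_R_tw k ha hN).choose_spec.1
  supp := (exists_R_tw k ha hN).choose_spec.2

end Hyp

end FermatAgent.LT
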