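import Mathlib
import Fermat.Agent.LT.Descent.Hyp.Weight
import Fermat.Agent.LT.Descent.Identity

/-!
# Finite parts of the glued terms of a diagonal class

Sums over the finite points of the slice are computed one place at a time: a vanishing sum at one
place kills the whole sum, and the supports are finite.
-/

set_option autoImplicit false

noncomputable section

open Matrix IsDedekindDomain NumberField Filter MeasureTheory
open scoped MatrixGroups

namespace FermatAgent.LT

open Classical in
/-- Replace one coordinate. -/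
def updC {F : Type*} [Field F] [NumberField F] {U : Level F} (z : FinCoset U)
    (v : HeightOneSpectrum (𝓞 F)) (d : G2 F ⧸ U.loc v) : FinCoset U :=
  ⟨Function.update z.1 v d, by
    filter_upwards [z.2, (Set.finite_singleton v).compl_mem_cofinite] with u hu hne
    rwa [Function.update_of_ne hne]⟩

section Update

variable {F : Type*} [Field F] [NumberField F] {U : Level F} {v : HeightOneSpectrum (𝓞 F)}

/-- The updated component. -/
lemma updC_self (z : FinCoset U) (d : G2 F ⧸ U.loc v) : (updC z v d).1 v = d := by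
  classical
  simp [updC]

/-- The other components are unchanged. -/
lemma updC_ne (z : FinCoset U) (d : G2 F ⧸ U.loc v) {u : HeightOneSpectrum (𝓞 F)} (h : u ≠ v) :
    (updC z v d).1 u = z.1 u := by
  classical
  simp [updC, h]

/-- Updates at a place compose. -/
lemma updC_updC (z : FinCoset U) (d e : G2 F ⧸ U.loc v) : updC (updC z v d) v e = updC z v e := by
  classical
  exact Subtype.ext (Function.update_idem _ _ _)

/-- Updating with the same value does nothing. -/
lemma updC_eq_self (z : FinCoset U) : updC z v (z.1 v) = z := by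
  classical
  exact Subtype.ext (Function.update_eq_self v z.1)

/-- Vanishing fibre sums kill a finitely supported sum. -/
theorem tsum_eq_zero_of_fibre {f : FinCoset U → ℂ} (S : Finset (FinCoset U))
    (hS : ∀ z ∉ S, f z = 0) (v : HeightOneSpectrum (𝓞 F))
    (h : ∀ z, ∑' d, f (updC z v d) = 0) : ∑' z, f z = 0 := by
  classical
  set b : G2 F ⧸ U.loc v := QuotientGroup.mk 1
  let key : FinCoset U → FinCoset U := fun z => updC z v b
  rw [tsum_eq_sum hS, ← Finset.sum_fiberwise_of_maps_to (g := key) (t := S.image key)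
    fun z hz => Finset.mem_image_of_mem key hz]
  refine Finset.sum_eq_zero fun q hq => ?_
  obtain ⟨z₀, -, rfl⟩ := Finset.mem_image.mp hq
  have hmem : ∀ z, key z = key z₀ → updC z₀ v (z.1 v) = z := fun z hz => by
    rw [← updC_updC z₀ b, show updC z₀ v b = key z from hz.symm, updC_updC, updC_eq_self]
  have hinj : Set.InjOn (fun d => updC z₀ v d) Set.univ := fun d _ e _ hde => by
    rw [← updC_self z₀ d, ← updC_self z₀ e]
    exact congrArg (fun z : FinCoset U => z.1 v) hde
  rw [← h z₀, tsum_eq_sum (s := (S.filter fun z => key z = key z₀).image fun z => z.1 v) fun d hd =>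
    hS _ fun hmem' => hd (Finset.mem_image.mpr ⟨_, Finset.mem_filter.mpr
      ⟨hmem', updC_updC z₀ d b⟩, updC_self z₀ d⟩)]
  rw [Finset.sum_image fun a ha c hc e => by
    rw [← hmem a (Finset.mem_filter.mp ha).2, ← hmem c (Finset.mem_filter.mp hc).2]
    exact congrArg (updC z₀ v) e]
  exact Finset.sum_congr rfl fun z hz => by rw [hmem z (Finset.mem_filter.mp hz).2]

/-- The base coset has local size one. -/
lemma locM_base {ξ : Fin 2 → F} (hξ : ξ = e1 ∨ ξ = e0) :
    locM v ξ (QuotientGroup.mk 1 : G2 F ⧸ U.loc v) = 1 := by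
  rw [← map_one ProjGenLinGroup.mk, locM_mk]
  rcases hξ with rfl | rfl <;> simp [locMGL, vecAbs, e1, e0]

/-- Two lines: the logarithm of the finite heights is a finite sum. -/
lemma log_finprod_heights [IsTotallyComplex F] (x : FinCoset U)
    (T : Finset (HeightOneSpectrum (𝓞 F))) (hT : ∀ u ∉ T, x.1 u = QuotientGroup.mk 1) :
    Real.log (∏ᶠ u, locM u e1 (x.1 u)) + Real.log (∏ᶠ u, locM u e0 (x.1 u)) =
      ∑ u ∈ T, Hyp.lw (x.1 u) := by
  have h : ∀ ξ : Fin 2 → F, ξ = e1 ∨ ξ = e0 →
      ∏ᶠ u, locM u ξ (x.1 u) = ∏ u ∈ T, locM u ξ (x.1 u) := fun ξ hξ =>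
    finprod_eq_prod_of_mulSupport_subset _ fun u hu => by
      by_contra hn
      exact hu (by
        show locM u ξ (x.1 u) = 1
        rw [hT u hn]
        exact locM_base hξ)
  rw [h _ (Or.inl rfl), h _ (Or.inr rfl), Real.log_prod fun u _ => (locM_pos u e1_ne_zero _).ne',
    Real.log_prod fun u _ => (locM_pos u e0_ne_zero _).ne', ← Finset.sum_add_distrib]
  exact Finset.sum_congr rfl fun u _ =>
    (Real.log_mul (locM_pos u e1_ne_zero _).ne' (locM_pos u e0_ne_zero _).ne').symm

end Update

namespace Hyp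

open Whit TwistCtx

variable {K L : Type*} [Field K] [NumberField K] [Field L] [NumberField L] [Algebra K L]
  {X : TwistCtx K L}

open Classical in
/-- Products of local functions over `T` on the points fixed outside. -/
def KK (δ : G2 K) (T : Finset (HeightOneSpectrum (𝓞 K)))
    (κ : ∀ v, Pt X v → ℂ) (z : FinCoset X.UK) : ℂ :=
  if ∀ v ∉ T, δ • z.1 v = z.1 v then ∏ v ∈ T, κ v (z.1 v) else 0

/-- Replacing one factor by a multiple. -/
lemma KK_mul (δ : G2 K) {T : Finset (HeightOneSpectrum (𝓞 K))}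
    [DecidableEq (HeightOneSpectrum (𝓞 K))]
    {u : HeightOneSpectrum (𝓞 K)} (hu : u ∈ T) (κ : ∀ v, Pt X v → ℂ) (φ : Pt X u → ℂ)
    (z : FinCoset X.UK) :
    φ (z.1 u) * KK δ T κ z = KK δ T (Function.update κ u fun d => φ d * κ u d) z := by
  unfold KK
  split_ifs with h
  · rw [← Finset.mul_prod_erase T (fun v => κ v (z.1 v)) hu,
      ← Finset.mul_prod_erase T (fun v => Function.update κ u (fun d => φ d * κ u d) v (z.1 v)) hu,
      Function.update_self, mul_assoc]
    refine congrArg _ (congrArg (κ u (z.1 u) * ·) (Finset.prod_congr rfl fun v hv => ?_))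
    rw [Function.update_of_ne (Finset.ne_of_mem_erase hv)]
  · rw [mul_zero]

variable {a : Kˣ}

/-- Outside the exceptional places only the base point of the slice is fixed. -/
lemma eq_base_of_fix {v : HeightOneSpectrum (𝓞 K)} (hU : X.UK.loc v = locK v)
    (ha : v.valuation K (a : K) = 1) (ha1 : v.valuation K (1 - (a : K)) = 1)
    {c : Pt X v} (hc : c ∈ slice X.UK v) (hfix : (dG a : G2 K) • c = c) :
    c = QuotientGroup.mk 1 := by
  obtain ⟨β, κ, hκ, rfl⟩ := exists_slice_rep hc
  have hb : (QuotientGroup.mk κ : Pt X v) = QuotientGroup.mk 1 := by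
    rw [QuotientGroup.eq, mul_one, hU]
    exact (locK v).inv_mem hκ
  rw [hb] at hfix ⊢
  rw [← mul_smul, dG_mul_nB, MulAction.Quotient.smul_mk, MulAction.Quotient.smul_mk, smul_eq_mul,
    smul_eq_mul, mul_one, mul_one, QuotientGroup.eq, hU, _root_.mul_inv_rev, mul_assoc, ← nB_neg,
    ← nB_add] at hfix
  have h1 := ((locK v).mul_mem_cancel_left ((locK v).inv_mem (dG_mem_locK ha))).mp hfix
  have hβ : v.valuation K β ≤ 1 := by
    have h2 := val_le_one_of_nB_mem h1
    rwa [show -((a : K) * β) + β = (1 - (a : K)) * β by ring, map_mul, ha1, one_mul] at h2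
  rw [MulAction.Quotient.smul_mk, smul_eq_mul, mul_one, QuotientGroup.eq, mul_one, hU]
  exact (locK v).inv_mem (nB_mem_locK hβ)

open Classical in
/-- The points of the slice fixed outside `T` with local supports in `s`. -/
def supp (δ : G2 K) (T : Finset (HeightOneSpectrum (𝓞 K)))
    (s : ∀ v, Set (Pt X v)) : Set (FinCoset X.UK) :=
  {z | (∀ v, z.1 v ∈ slice X.UK v) ∧ (∀ v ∉ T, δ • z.1 v = z.1 v) ∧
    ∀ v ∈ T, z.1 v ∈ s v}

/-- The points of the slice with prescribed local supports at `T`, fixed outside, are finite in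
number. -/
theorem finite_supp
    {T : Finset (HeightOneSpectrum (𝓞 K))}
    (hT : ∀ v ∉ T, X.UK.loc v = locK v ∧ v.valuation K (a : K) = 1 ∧
      v.valuation K (1 - (a : K)) = 1)
    {s : ∀ v, Set (Pt X v)} (hfs : ∀ v ∈ T, (slice X.UK v ∩ s v).Finite) :
    (supp (dG a) T s).Finite := by
  classical
  have hfin : ∀ v : T, (slice X.UK v.1 ∩ s v.1).Finite := fun v => hfs v.1 v.2
  refine Set.Finite.of_finite_image (f := fun z : FinCoset X.UK => fun v : T => z.1 v.1)
    ((Set.Finite.pi hfin).subset ?_) ?_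
  · rintro _ ⟨z, ⟨h1, -, h3⟩, rfl⟩ v -
    exact ⟨h1 _, h3 _ v.2⟩
  · intro y hy z hz h
    refine FinCoset.ext fun v => ?_
    by_cases hv : v ∈ T
    · exact congrFun h ⟨v, hv⟩
    · obtain ⟨h1, h2, h3⟩ := hT v hv
      rw [eq_base_of_fix h1 h2 h3 (hy.1 v) (hy.2.1 v hv),
        eq_base_of_fix h1 h2 h3 (hz.1 v) (hz.2.1 v hv)]

/-- Supported cosets are trivial off the finite set. -/
lemma base_of_mem_supp {T : Finset (HeightOneSpectrum (𝓞 K))}
    (hT : ∀ v ∉ T, X.UK.loc v = locK v ∧ v.valuation K (a : K) = 1 ∧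
      v.valuation K (1 - (a : K)) = 1)
    {s : ∀ v, Set (Pt X v)} {z : FinCoset X.UK} (hz : z ∈ supp (dG a) T s)
    {v : HeightOneSpectrum (𝓞 K)} (hv : v ∉ T) : z.1 v = QuotientGroup.mk 1 :=
  eq_base_of_fix (hT v hv).1 (hT v hv).2.1 (hT v hv).2.2 (hz.1 v) (hz.2.1 v hv)

/-- Nonzero terms are supported. -/
lemma mem_supp_of_ne_zero {δ : G2 K} {T : Finset (HeightOneSpectrum (𝓞 K))}
    {s : ∀ v, Set (Pt X v)} {κ : ∀ v, Pt X v → ℂ}
    (hsupp : ∀ v ∈ T, ∀ d, κ v d ≠ 0 → d ∈ s v) {z : FinCoset X.UK}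
    (h : (theta z : ℂ) * KK δ T κ z ≠ 0) : z ∈ supp δ T s := by
  classical
  have h1 := left_ne_zero_of_mul h
  have h2 := right_ne_zero_of_mul h
  unfold KK at h2
  split_ifs at h2 with hfix
  · refine ⟨fun v => ?_, hfix, fun v hv => hsupp v hv _ (Finset.prod_ne_zero_iff.mp h2 v hv)⟩
    by_contra hn
    refine h1 ?_
    rw [theta, if_neg fun hh : (∀ v, z.1 v ∈ slice X.UK v) => hn (hh v)]
    simp
  · exact absurd rfl h2

/-- If two families of local functions differ at one place and their sums over the slice there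
have ratio `c`, so do their weighted global sums. -/
theorem tsum_theta_KK
    {T : Finset (HeightOneSpectrum (𝓞 K))}
    (hT : ∀ v ∉ T, X.UK.loc v = locK v ∧ v.valuation K (a : K) = 1 ∧
      v.valuation K (1 - (a : K)) = 1)
    {s : ∀ v, Set (Pt X v)} (hfs : ∀ v ∈ T, (slice X.UK v ∩ s v).Finite)
    {u : HeightOneSpectrum (𝓞 K)} (hu : u ∈ T)
    {κ κ' : ∀ v, Pt X v → ℂ}
    (hk : ∀ v ∈ T, ∀ d, κ v d ≠ 0 → d ∈ s v)
    (hk' : ∀ v ∈ T, ∀ d, κ' v d ≠ 0 → d ∈ s v)
    (heq : ∀ v ≠ u, κ' v = κ v) (c : ℂ)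
    (hloc : ∑' d, (slice X.UK u).indicator (κ' u) d = c * ∑' d, (slice X.UK u).indicator (κ u) d) :
    ∑' z, (theta z : ℂ) * KK (dG a) T κ' z = c * ∑' z, (theta z : ℂ) * KK (dG a) T κ z := by
  classical
  set S := (finite_supp hT hfs).toFinset
  have hzero : ∀ κ : ∀ v, Pt X v → ℂ, (∀ v ∈ T, ∀ d, κ v d ≠ 0 → d ∈ s v) →
      ∀ z ∉ S, (theta z : ℂ) * KK (dG a) T κ z = 0 := fun κ hκ z hz => by
    by_contra h
    exact hz ((Set.Finite.mem_toFinset _).mpr (mem_supp_of_ne_zero hκ h))
  have hsum : ∀ κ : ∀ v, Pt X v → ℂ, (∀ v ∈ T, ∀ d, κ v d ≠ 0 → d ∈ s v) →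
      Summable fun z => (theta z : ℂ) * KK (dG a) T κ z := fun κ hκ =>
    summable_of_hasFiniteSupport (S.finite_toSet.subset fun z hz => by
      by_contra h
      exact hz (hzero κ hκ z h))
  rw [← sub_eq_zero, ← tsum_mul_left, ← (hsum κ' hk').tsum_sub ((hsum κ hk).mul_left c)]
  refine tsum_eq_zero_of_fibre S (fun z hz => by rw [hzero κ' hk' z hz, hzero κ hk z hz]; ring) u
    fun z => ?_
  -- the common factor away from `u`
  set R : ℂ := (if (∀ v ≠ u, z.1 v ∈ slice X.UK v) ∧ (∀ v ∉ T, (dG a : G2 K) • z.1 v = z.1 v) then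
    ((nUnits K : ℝ)⁻¹ : ℂ) * ∏ v ∈ T.erase u, κ v (z.1 v) else 0)
  have hfac : ∀ κ'' : ∀ v, Pt X v → ℂ, (∀ v ≠ u, κ'' v = κ v) → ∀ d,
      (theta (updC z u d) : ℂ) * KK (dG a) T κ'' (updC z u d) =
        R * (slice X.UK u).indicator (κ'' u) d := by
    intro κ'' h'' d
    have hfix : (∀ v ∉ T, (dG a : G2 K) • (updC z u d).1 v = (updC z u d).1 v) ↔
        ∀ v ∉ T, (dG a : G2 K) • z.1 v = z.1 v :=
      forall_congr' fun v => forall_congr' fun hv => by
        rw [updC_ne z d fun h : v = u => hv (h ▸ hu)]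
    have hsl : (∀ v, (updC z u d).1 v ∈ slice X.UK v) ↔
        d ∈ slice X.UK u ∧ ∀ v ≠ u, z.1 v ∈ slice X.UK v := by
      refine ⟨fun h => ⟨updC_self z d ▸ h u, fun v hv => updC_ne z d hv ▸ h v⟩, fun h v => ?_⟩
      rcases eq_or_ne v u with rfl | hv
      · rw [updC_self]; exact h.1
      · rw [updC_ne z d hv]; exact h.2 v hv
    by_cases hd : d ∈ slice X.UK u
    swap
    · rw [Set.indicator_of_notMem hd, mul_zero, theta, if_neg fun h => hd (hsl.mp h).1]
      simp
    rw [Set.indicator_of_mem hd]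
    simp only [R, theta, KK]
    by_cases hA : ∀ v ≠ u, z.1 v ∈ slice X.UK v
    swap
    · rw [if_neg fun h => hA (hsl.mp h).2, if_neg (not_and_of_not_left _ hA)]
      simp
    rw [if_pos (hsl.mpr ⟨hd, hA⟩)]
    by_cases hB : ∀ v ∉ T, (dG a : G2 K) • z.1 v = z.1 v
    swap
    · rw [if_neg fun h => hB (hfix.mp h), if_neg (not_and_of_not_right _ hB), mul_zero, zero_mul]
    rw [if_pos (hfix.mpr hB), if_pos ⟨hA, hB⟩, ← Finset.mul_prod_erase T _ hu, updC_self,
      Finset.prod_congr rfl fun v hv => show κ'' v ((updC z u d).1 v) = κ v (z.1 v) by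
        rw [updC_ne z d (Finset.ne_of_mem_erase hv), h'' v (Finset.ne_of_mem_erase hv)]]
    push_cast
    ring
  simp only [hfac κ' heq, hfac κ fun _ _ => rfl]
  have hs : ∀ κ'' : Pt X u → ℂ, (∀ d, κ'' d ≠ 0 → d ∈ s u) →
      Summable ((slice X.UK u).indicator κ'') := fun κ'' h'' =>
    summable_of_hasFiniteSupport ((hfs u hu).subset fun d hd => by
      simp only [Function.mem_support, ne_eq, Set.indicator_apply_eq_zero, not_forall] at hd
      exact ⟨hd.1, h'' d hd.2⟩)
  rw [((hs _ (hk' u hu)).mul_left R).tsum_sub (((hs _ (hk u hu)).mul_left R).mul_left c),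
    tsum_mul_left, tsum_mul_left, tsum_mul_left, hloc]
  ring

/-- The lift of a translation. -/
lemma incl_nB (x : K) : incl (K := K) (L := L) (nB x : G2 K) = nB (algebraMap K L x) := by
  rw [incl, g2Map, nB, ProjGenLinGroup.map_mk]
  congr 1
  apply Units.ext
  ext i j
  fin_cases i <;> fin_cases j <;> simp

end Hyp

namespace TwistCtx.Glue

variable {K L : Type*} [Field K] [NumberField K] [Field L] [NumberField L] [Algebra K L]
  {X : TwistCtx K L} {B : X.Over} {P : KerPair B} {γ : G2 L} {δ : G2 K} {H : Subgroup (G2 K)}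
  (G : Glue P γ δ H)

/-- Only finitely many points above meet a given point below. -/
theorem finite_x_global (z : FinCoset X.UK) :
    {x : FinCoset X.UL | P.up.kfin (X.finTwist γ x) x * (G.W x z : ℂ) ≠ 0}.Finite := by
  classical
  refine Set.Finite.of_finite_image (f := fun x : FinCoset X.UL => fun v : G.T =>
    resF (B := B) x v.1)
    ((Set.Finite.pi fun v : G.T => G.finite_x v.1 v.2 (z.1 v.1)).subset ?_) ?_
  · rintro _ ⟨x, hx, rfl⟩ v -
    have hW := right_ne_zero_of_mul hx
    have hk := left_ne_zero_of_mul hx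
    simp only [W] at hW
    rw [P.up_kfin G.subset] at hk
    split_ifs at hW with hc
    · split_ifs at hk with hf
      · refine mul_ne_zero ?_ ?_
        · exact Finset.prod_ne_zero_iff.mp hk v.1 v.2
        · rw [Complex.ofReal_ne_zero] at hW ⊢
          exact Finset.prod_ne_zero_iff.mp hW v.1 v.2
      · exact absurd rfl hk
    · simp at hW
  · intro x hx y hy h
    refine Subtype.ext (ResSum.eq_of_res_eq (b := B.b) fun v => ?_)
    by_cases hv : v ∈ G.T
    · exact congrFun h ⟨v, hv⟩
    · have hWx := right_ne_zero_of_mul hx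
      have hWy := right_ne_zero_of_mul hy
      simp only [W] at hWx hWy
      split_ifs at hWx with hcx
      · split_ifs at hWy with hcy
        · exact (hcx v hv).2.trans (hcy v hv).2.symm
        · simp at hWy
      · simp at hWx

/-- The local sum against a function of the coordinates above. -/
def psi (v : HeightOneSpectrum (𝓞 K)) (φ : Fam B v → ℂ) (d : Pt X v) : ℂ :=
  ∑' x, P.loc v (ft B γ v x) x * (G.A v x d : ℂ) * φ x

/-- A nonzero local sum has nonzero absolute sum. -/
lemma absTot_ne_zero_of_psi {v : HeightOneSpectrum (𝓞 K)} (hv : v ∈ G.T) {φ : Fam B v → ℂ}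
    {d : Pt X v} (h : G.psi v φ d ≠ 0) : G.absTot v d ≠ 0 := by
  intro h0
  refine h ((tsum_congr fun x => ?_).trans tsum_zero)
  have hs : Summable fun x => ‖P.loc v (ft B γ v x) x * (G.A v x d : ℂ)‖ :=
    summable_of_hasFiniteSupport ((G.finite_x v hv d).subset fun x hx => by simpa using hx)
  have h2 : P.loc v (ft B γ v x) x * (G.A v x d : ℂ) = 0 := by
    have := (hasSum_zero_iff_of_nonneg fun x => norm_nonneg _).mp
      (h0 ▸ hs.hasSum : HasSum (fun x => ‖P.loc v (ft B γ v x) x * (G.A v x d : ℂ)‖) 0)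
    simpa using congrFun this x
  rw [h2, zero_mul]

open Classical in
include G in
/-- Summation along the cosets above against a function at one place. -/
theorem tsum_x_mul {u : HeightOneSpectrum (𝓞 K)} (hu : u ∈ G.T) (φ : Fam B u → ℂ)
    (z : FinCoset X.UK) :
    ∑' x : FinCoset X.UL, P.up.kfin (X.finTwist γ x) x * (G.W x z : ℂ) * φ (resF x u) =
      Hyp.KK δ G.T (Function.update (fun v d => (P.kv v).k (δ • d) d) u (G.psi u φ)) z := by
  refine HasSum.tsum_eq ((G.hasSum_fam (fun v x d => P.loc v (ft B γ v x) x * (G.A v x d : ℂ) *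
    (if h : v = u then φ (h ▸ x) else 1))
    (Function.update (fun v d => (P.kv v).k (δ • d) d) u (G.psi u φ))
    (fun v hv d => (G.finite_x v hv d).subset fun x hx => left_ne_zero_of_mul hx)
    (fun v hv d => by
      rcases eq_or_ne v u with rfl | hne
      · simp [psi]
      · simp only [dif_neg hne, mul_one, Function.update_of_ne hne]
        exact G.sum_x v hv d) z).congr_fun fun x => ?_)
  rw [G.kfin_mul_W, ite_mul, zero_mul]
  refine if_congr Iff.rfl ?_ rfl
  simp only [Finset.prod_mul_distrib]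
  rw [Finset.prod_eq_single_of_mem (f := fun v => if h : v = u then φ (h ▸ resF x v) else 1) u hu
    fun v _ hv => dif_neg hv, dif_pos rfl]

open Classical in
/-- More exceptional places. -/
def enlarge (T' : Finset (HeightOneSpectrum (𝓞 K))) (hT' : G.T ⊆ T') : Glue P γ δ H where
  norm_eq := G.norm_eq
  mem_twisted := G.mem_twisted
  mem_plain := G.mem_plain
  T := T'
  subset := G.subset.trans hT'
  A v x z := if v ∈ G.T then G.A v x z else if δ • z = z ∧ x = G.lift v z then 1 else 0
  nonneg v _ x z := by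
    split_ifs with h
    exacts [G.nonneg v h x z, zero_le_one, le_rfl]
  finite_x v _ z := by
    by_cases h : v ∈ G.T
    · simp only [if_pos h]; exact G.finite_x v h z
    · refine (Set.finite_singleton (G.lift v z)).subset fun x hx => ?_
      simp only [Set.mem_ofPred_eq, if_neg h, ne_eq, mul_eq_zero, not_or] at hx
      by_contra hne
      exact hx.2 (by rw [if_neg fun hh => hne hh.2]; simp)
  sum_x v _ z := by
    by_cases h : v ∈ G.T
    · simp only [if_pos h]; exact G.sum_x v h z
    · have hP : v ∉ P.T := fun hh => h (G.subset hh)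
      simp only [if_neg h]
      rw [tsum_eq_single (G.lift v z) fun x hx => by rw [if_neg fun hh => hx hh.2]; simp,
        P.kv_one v hP,
        LocKer.one_k]
      by_cases hz : δ • z = z
      · rw [if_pos ⟨hz, rfl⟩, G.lift_fix v h z hz, if_pos hz]
        simp only [KerPair.loc, Complex.ofReal_one, mul_one]
        refine Finset.prod_eq_one fun w _ => ?_
        rw [P.kw_one w.1 (by rw [w.2]; exact hP), LocKer.one_k, if_pos rfl]
      · rw [if_neg fun hh => hz hh.1, if_neg hz]
        simp
  sum_z v _ x hx := by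
    by_cases h : v ∈ G.T
    · simp only [if_pos h]; exact G.sum_z v h x hx
    · have hfx : ft B γ v x = x := by
        funext w
        by_contra hne
        refine hx (Finset.prod_eq_zero (Finset.mem_univ w) ?_)
        rw [P.kw_one w.1 (by rw [w.2]; exact fun hh => h (G.subset hh)), LocKer.one_k, if_neg hne]
      obtain ⟨z₀, hz₀, hl⟩ := G.lift_surj v h x hfx
      have e : (fun z : Pt X v => if δ • z = z ∧ x = G.lift v z then (1 : ℝ) else 0) =
          fun z => if z = z₀ then 1 else 0 := by
        funext z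
        refine if_congr ⟨fun hh => G.lift_inj v h (hh.2.symm.trans hl.symm), ?_⟩ rfl rfl
        rintro rfl
        exact ⟨hz₀, hl.symm⟩
      show HasSum (fun z => if v ∈ G.T then G.A v x z else _) 1
      simp only [if_neg h]
      rw [e]
      exact hasSum_ite_eq z₀ (1 : ℝ)
  finite_z v _ x := by
    by_cases h : v ∈ G.T
    · simp only [if_pos h]; exact G.finite_z v h x
    · refine Set.Subsingleton.finite fun a ha b hb => ?_
      simp only [Set.mem_ofPred_eq, if_neg h, ne_eq, ite_eq_right_iff, not_forall] at ha hb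
      exact G.lift_inj v h (ha.1.2.symm.trans hb.1.2)
  equiv v _ g hg x z := by
    by_cases h : v ∈ G.T
    · simp only [if_pos h]; exact G.equiv v h g hg x z
    · simp only [if_neg h]
      refine if_congr ?_ rfl rfl
      rw [G.smul_fix hg, G.lift_smul v h g hg]
      exact and_congr_right fun _ => (actFam_bijective (B := B) g v).1.eq_iff
  lift := G.lift
  lift_fix v hv := G.lift_fix v fun h => hv (hT' h)
  lift_surj v hv := G.lift_surj v fun h => hv (hT' h)
  lift_inj v hv := G.lift_inj v fun h => hv (hT' h)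
  lift_smul v hv := G.lift_smul v fun h => hv (hT' h)
  lift_base v hv := G.lift_base v fun h => hv (hT' h)

end TwistCtx.Glue

end FermatAgent.LT
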