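import Mathlib
import Fermat.Agent.LT.Descent.Hyp.Fin

/-!
# Logarithmic weights at a split place

At a place with three places above, the logarithmic heights of the three coordinates contribute
the same: a diagonal translation moves the slice of one coordinate to that of another.
-/

set_option autoImplicit false

noncomputable section

open Matrix IsDedekindDomain NumberField Filter
open scoped MatrixGroups

namespace FermatAgent.LT.Hyp

open Whit TwistCtx

variable {K L : Type*} [Field K] [NumberField K] [Field L] [NumberField L] [Algebra K L]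
  {X : TwistCtx K L} {B : X.Over}

open Classical in
/-- Coordinates at a split place. -/
structure SplitAt (P : KerPair B) (γ : G2 L) (δ : G2 K) (v : HeightOneSpectrum (𝓞 K)) where
  /-- the identification of the cosets -/
  iota : ∀ w : {w // B.b w = v}, Pt X v → G2 L ⧸ X.UL.loc w.1
  iota_mk : ∀ w (g : G2 K),
    iota w (QuotientGroup.mk g) = QuotientGroup.mk (g2Map (algebraMap K L) g)
  iota_bij : ∀ w, Function.Bijective (iota w)
  norm_eq : ∀ (w : {w // B.b w = v}) (x : K), absV w.1 (algebraMap K L x) = absV v x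
  card_eq : Fintype.card {w // B.b w = v} = 3
  sum_x : ∀ (w : {w // B.b w = v}) (z : Pt X v),
    ∑' x : Fam B v, (if x w = iota w z then P.loc v (ft B γ v x) x else 0) = (P.kv v).k (δ • z) z

namespace SplitAt

variable {P : KerPair B} {γ : G2 L} {δ : G2 K} {v : HeightOneSpectrum (𝓞 K)}
  (D : SplitAt P γ δ v)

lemma locM_iota (w : {w // B.b w = v}) (ξ : Fin 2 → K) (z : Pt X v) :
    locM w.1 (fun i => algebraMap K L (ξ i)) (D.iota w z) = locM v ξ z := by
  induction z using QuotientGroup.induction_on with | H g₀ =>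
  obtain ⟨g, rfl⟩ := ProjGenLinGroup.mk_surjective g₀
  rw [D.iota_mk, g2Map, ProjGenLinGroup.map_mk, locM_mk, locM_mk]
  unfold locMGL vecAbs
  have h1 : ∀ i, ((fun i => algebraMap K L (ξ i)) ᵥ*
      (GeneralLinearGroup.map (algebraMap K L) g).val) i = algebraMap K L ((ξ ᵥ* g.val) i) :=
    fun i => by
    simp [Matrix.vecMul, dotProduct, Fin.sum_univ_two]
  have h2 : (GeneralLinearGroup.map (algebraMap K L) g).val.det = algebraMap K L g.val.det := by
    simp [Matrix.det_fin_two]
  rw [h1, h1, h2, D.norm_eq, D.norm_eq, D.norm_eq]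

lemma locM_e1_iota (w : {w // B.b w = v}) (z : Pt X v) :
    locM w.1 e1 (D.iota w z) = locM v e1 z := by
  rw [← D.locM_iota w e1 z]
  congr 1
  funext i
  fin_cases i <;> simp [e1]

lemma locM_e0_iota (w : {w // B.b w = v}) (z : Pt X v) :
    locM w.1 e0 (D.iota w z) = locM v e0 z := by
  rw [← D.locM_iota w e0 z]
  congr 1
  funext i
  fin_cases i <;> simp [e0]

lemma iota_mem_slice (w : {w // B.b w = v}) (z : Pt X v) :
    D.iota w z ∈ slice X.UL w.1 ↔ z ∈ slice X.UK v := by
  show _ = _ ↔ _ = _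
  rw [D.locM_e1_iota]

lemma lw_iota (w : {w // B.b w = v}) (z : Pt X v) : lw (D.iota w z) = lw z := by
  simp only [lw, D.locM_e1_iota, D.locM_e0_iota]

open Classical in
variable (v) in
/-- A diagonal element of given absolute value, if there is one. -/
def pick (r : ℝ) : Kˣ := if h : ∃ α : Kˣ, absV v (α : K) = r then h.choose else 1

include D in
lemma absV_pick {w : {w // B.b w = v}} (c : G2 L ⧸ X.UL.loc w.1) :
    absV v (pick v (locM w.1 e1 c) : K) = locM w.1 e1 c := by
  classical
  obtain ⟨z, rfl⟩ := (D.iota_bij w).2 c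
  rw [D.locM_e1_iota]
  unfold pick
  rw [dif_pos (exists_absV_eq_locM z)]
  exact (exists_absV_eq_locM z).choose_spec

include D in
lemma locM_act (α : Kˣ) (x : Fam B v) (w : {w // B.b w = v}) :
    locM w.1 e1 (actFam B (dG α) x w) = locM w.1 e1 (x w) / absV v (α : K) := by
  show locM w.1 e1 (incl (dG α : G2 K) • x w) = _
  have e : incl (K := K) (L := L) (dG α : G2 K) = dG (Units.map (algebraMap K L : K →* L) α) := by
    simp only [incl, g2Map, dG, ProjGenLinGroup.map_mk]
    congr 1
    apply Units.ext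
    ext i j
    fin_cases i <;> fin_cases j <;> simp
  rw [e, locM_e1_dG]
  congr 1
  exact D.norm_eq w α

omit D in
lemma lw_act (α : Kˣ) (x : Fam B v) (w : {w // B.b w = v}) :
    lw (actFam B (dG α) x w) = lw (x w) := by
  show lw (incl (dG α : G2 K) • x w) = _
  have e : incl (K := K) (L := L) (dG α : G2 K) = dG (Units.map (algebraMap K L : K →* L) α) := by
    simp only [incl, g2Map, dG, ProjGenLinGroup.map_mk]
    congr 1
    apply Units.ext
    ext i j
    fin_cases i <;> fin_cases j <;> simp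
  rw [e, lw_dG]

/-- Moving the slice of one coordinate to the slice of another. -/
def shift (a b : {w // B.b w = v}) :
    {x : Fam B v // x a ∈ slice X.UL a.1} ≃ {x : Fam B v // x b ∈ slice X.UL b.1} where
  toFun x := ⟨actFam B (dG (pick v (locM b.1 e1 (x.1 b)))) x.1, by
    show locM b.1 e1 _ = 1
    rw [D.locM_act, D.absV_pick, div_self (locM_pos b.1 e1_ne_zero _).ne']⟩
  invFun y := ⟨actFam B (dG (pick v (locM a.1 e1 (y.1 a))⁻¹))⁻¹ y.1, by
    show locM a.1 e1 _ = 1
    rw [← dG_inv, D.locM_act]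
    have h : absV v (pick v (locM a.1 e1 (y.1 a))⁻¹ : K) = (locM a.1 e1 (y.1 a))⁻¹ := by
      classical
      obtain ⟨z, hz⟩ := (D.iota_bij a).2 (y.1 a)
      have hex : ∃ α : Kˣ, absV v (α : K) = (locM a.1 e1 (y.1 a))⁻¹ := by
        obtain ⟨α, hα⟩ := exists_absV_eq_locM z
        exact ⟨α⁻¹, by rw [Units.val_inv_eq_inv_val, map_inv₀, hα, ← hz, D.locM_e1_iota]⟩
      unfold pick
      rw [dif_pos hex]
      exact hex.choose_spec
    rw [Units.val_inv_eq_inv_val, map_inv₀, h, inv_inv, div_self (locM_pos a.1 e1_ne_zero _).ne']⟩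
  left_inv x := by
    refine Subtype.ext (funext fun w => ?_)
    set α := pick v (locM b.1 e1 (x.1 b))
    have hx : locM a.1 e1 (x.1 a) = 1 := x.2
    have e : (locM a.1 e1 (actFam B (dG α) x.1 a))⁻¹ = locM b.1 e1 (x.1 b) := by
      rw [D.locM_act, hx, D.absV_pick, one_div, inv_inv]
    show incl _ • incl (dG α : G2 K) • x.1 w = x.1 w
    rw [e, map_inv, inv_smul_smul]
  right_inv y := by
    refine Subtype.ext (funext fun w => ?_)
    set β := pick v (locM a.1 e1 (y.1 a))⁻¹
    have hy : locM b.1 e1 (y.1 b) = 1 := y.2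
    have hb : absV v (β : K) = (locM a.1 e1 (y.1 a))⁻¹ := by
      classical
      obtain ⟨z, hz⟩ := (D.iota_bij a).2 (y.1 a)
      have hex : ∃ α : Kˣ, absV v (α : K) = (locM a.1 e1 (y.1 a))⁻¹ := by
        obtain ⟨α, hα⟩ := exists_absV_eq_locM z
        exact ⟨α⁻¹, by rw [Units.val_inv_eq_inv_val, map_inv₀, hα, ← hz, D.locM_e1_iota]⟩
      simp only [β, pick, dif_pos hex]
      exact hex.choose_spec
    have e : locM b.1 e1 (actFam B (dG β)⁻¹ y.1 b) = (locM a.1 e1 (y.1 a))⁻¹ := by
      rw [← dG_inv, D.locM_act, hy, Units.val_inv_eq_inv_val, map_inv₀, hb, one_div, inv_inv]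
    show incl (dG (pick v (locM b.1 e1 (actFam B (dG β)⁻¹ y.1 b))) : G2 K) • incl _ • y.1 w = y.1 w
    rw [e, map_inv, smul_inv_smul]

include D in
lemma tsum_shift (a b : {w // B.b w = v}) (F : Fam B v → ℂ)
    (hF : ∀ α x, F (actFam B (dG α) x) = F x) :
    ∑' x, {x : Fam B v | x a ∈ slice X.UL a.1}.indicator F x =
      ∑' x, {x : Fam B v | x b ∈ slice X.UL b.1}.indicator F x := by
  rw [← tsum_subtype, ← tsum_subtype]
  show ∑' x : {x : Fam B v // x a ∈ slice X.UL a.1}, F x.1 =
    ∑' x : {x : Fam B v // x b ∈ slice X.UL b.1}, F x.1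
  rw [← (D.shift a b).tsum_eq]
  exact tsum_congr fun x => (hF _ x.1).symm

include D in
lemma summable_shift {a b : {w // B.b w = v}} {F : Fam B v → ℂ}
    (hF : ∀ α x, F (actFam B (dG α) x) = F x)
    (h : ({x : Fam B v | x a ∈ slice X.UL a.1}.indicator F).support.Finite) :
    ({x : Fam B v | x b ∈ slice X.UL b.1}.indicator F).support.Finite := by
  have h1 : ({y : {x : Fam B v // x a ∈ slice X.UL a.1} | F y.1 ≠ 0}).Finite :=
    Set.Finite.of_finite_image (f := Subtype.val) (h.subset (by
      rintro _ ⟨y, hy, rfl⟩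
      simpa [Function.mem_support, Set.indicator_apply, y.2] using hy)) Subtype.val_injective.injOn
  refine ((h1.image (D.shift a b)).image Subtype.val).subset fun x hx => ?_
  simp only [Function.mem_support, ne_eq, Set.indicator_apply_eq_zero, not_forall] at hx
  obtain ⟨hb, hx⟩ := hx
  refine ⟨⟨x, hb⟩, ⟨(D.shift a b).symm ⟨x, hb⟩, ?_, Equiv.apply_symm_apply _ _⟩, rfl⟩
  show F (actFam B (dG (pick v (locM a.1 e1 (x a))⁻¹))⁻¹ x) ≠ 0
  rw [← dG_inv, hF]
  exact hx

open Classical in
/-- Summing over one coordinate first. -/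
lemma tsum_fubini (w : {w // B.b w = v}) (F : Fam B v → ℂ)
    (h : ({x : Fam B v | x w ∈ slice X.UL w.1}.indicator F).support.Finite) :
    ∑' x, {x : Fam B v | x w ∈ slice X.UL w.1}.indicator F x =
      ∑' z, (slice X.UK v).indicator (fun z => ∑' x, if x w = D.iota w z then F x else 0) z := by
  set S := h.toFinset
  let e := Equiv.ofBijective _ (D.iota_bij w)
  set Z := S.image fun x => e.symm (x w)
  have hz : ∀ x z, (slice X.UK v).indicator (fun z => if x w = D.iota w z then F x else 0) z ≠ 0 →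
      x ∈ S ∧ z ∈ Z := by
    intro x z hne
    simp only [ne_eq, Set.indicator_apply_eq_zero, not_forall, ite_eq_right_iff] at hne
    obtain ⟨hzs, hxz, hF⟩ := hne
    have hx : x ∈ S := by
      simp only [S, Set.Finite.mem_toFinset, Function.mem_support, ne_eq,
        Set.indicator_apply_eq_zero, not_forall, Set.mem_ofPred_eq]
      exact ⟨hxz ▸ (D.iota_mem_slice w z).mpr hzs, hF⟩
    exact ⟨hx, Finset.mem_image.mpr ⟨x, hx, by rw [hxz]; exact e.symm_apply_apply z⟩⟩
  have hL : ∀ x, {x : Fam B v | x w ∈ slice X.UL w.1}.indicator F x =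
      ∑' z, (slice X.UK v).indicator (fun z => if x w = D.iota w z then F x else 0) z := by
    intro x
    obtain ⟨z₀, hz₀⟩ := (D.iota_bij w).2 (x w)
    rw [tsum_eq_single z₀ fun z hz => by
      simp only [Set.indicator_apply_eq_zero, ite_eq_right_iff]
      exact fun _ hxz => absurd ((D.iota_bij w).1 (hxz.symm.trans hz₀.symm)) hz]
    simp only [Set.indicator_apply, Set.mem_ofPred_eq, ← hz₀, D.iota_mem_slice, if_true]
  rw [tsum_congr hL, Summable.tsum_comm]
  · refine tsum_congr fun z => ?_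
    by_cases hzs : z ∈ slice X.UK v <;> simp [hzs]
  · exact summable_of_hasFiniteSupport ((Z.finite_toSet.prod S.finite_toSet).subset fun p hp =>
      ⟨(hz p.2 p.1 hp).2, (hz p.2 p.1 hp).1⟩)

open Classical in
/-- At a split place the sum of the logarithmic heights of the three coordinates against the
glued kernel is three times that below. -/
theorem tsum_psi {H : Subgroup (G2 K)} (G : Glue P γ δ H) (hv : v ∈ G.T)
    (hcomm : ∀ α : Kˣ, (dG α : G2 K) ∈ H)
    (w₀ : {w // B.b w = v}) (hA : ∀ x z, G.A v x z = if x w₀ = D.iota w₀ z then 1 else 0)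
    (hfin : {z | z ∈ slice X.UK v ∧ G.absTot v z ≠ 0}.Finite) :
    ∑' z, (slice X.UK v).indicator
        (G.psi v fun x => ((∑ w : {w // B.b w = v}, lw (x w) : ℝ) : ℂ)) z =
      3 * ∑' z, (slice X.UK v).indicator (fun z => (lw z : ℂ) * (P.kv v).k (δ • z) z) z := by
  set F₀ : Fam B v → ℂ := fun x => P.loc v (ft B γ v x) x
  have hF₀ : ∀ α x, F₀ (actFam B (dG α) x) = F₀ x := fun α x => by
    simp only [F₀]
    rw [ft_actFam (G.mem_twisted _ (hcomm α)), P.loc_actFam]
  have hsupp₀ : ({x : Fam B v | x w₀ ∈ slice X.UL w₀.1}.indicator F₀).support.Finite := by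
    refine (hfin.biUnion fun z _ => G.finite_x v hv z).subset fun x hx => ?_
    simp only [Function.mem_support, ne_eq, Set.indicator_apply_eq_zero, not_forall] at hx
    obtain ⟨hxs, hF⟩ := hx
    obtain ⟨z, hz⟩ := (D.iota_bij w₀).2 (x w₀)
    have hzs : z ∈ slice X.UK v := (D.iota_mem_slice w₀ z).mp (hz ▸ hxs)
    have hne : P.loc v (ft B γ v x) x * (G.A v x z : ℂ) ≠ 0 := by
      rw [hA, if_pos hz.symm]
      simpa using hF
    refine Set.mem_biUnion (x := z) ⟨hzs, fun h0 => ?_⟩ hne
    have hs : Summable fun x => ‖P.loc v (ft B γ v x) x * (G.A v x z : ℂ)‖ :=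
      summable_of_hasFiniteSupport ((G.finite_x v hv z).subset fun x hx => by simpa using hx)
    have := (hasSum_zero_iff_of_nonneg fun x => norm_nonneg _).mp
      (h0 ▸ hs.hasSum : HasSum (fun x => ‖P.loc v (ft B γ v x) x * (G.A v x z : ℂ)‖) 0)
    exact hne (by simpa using congrFun this x)
  set Fw : {w // B.b w = v} → Fam B v → ℂ := fun w x => F₀ x * (lw (x w) : ℂ)
  have hFw : ∀ w α x, Fw w (actFam B (dG α) x) = Fw w x := fun w α x => by
    simp only [Fw, hF₀, lw_act]
  have hsupp : ∀ w a, ({x : Fam B v | x a ∈ slice X.UL a.1}.indicator (Fw w)).support.Finite :=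
    fun w a => (D.summable_shift (a := w₀) (b := a) hF₀ hsupp₀).subset fun x hx => by
      simp only [Function.mem_support, ne_eq, Set.indicator_apply_eq_zero, not_forall] at hx ⊢
      exact ⟨hx.1, left_ne_zero_of_mul hx.2⟩
  have hψ : ∀ z, G.psi v (fun x => ((∑ w : {w // B.b w = v}, lw (x w) : ℝ) : ℂ)) z =
      ∑' x, if x w₀ = D.iota w₀ z then ∑ w, Fw w x else 0 := fun z => by
    refine tsum_congr fun x => ?_
    rw [hA]
    split_ifs
    · simp [Fw, F₀, Finset.mul_sum]
    · simp
  have hsum : ∀ z, Set.indicator (slice X.UK v) (fun z => ∑' x : Fam B v,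
      if x w₀ = D.iota w₀ z then ∑ w, Fw w x else 0) z =
    Set.indicator (slice X.UK v) (G.psi v fun x =>
      ((∑ w : {w // B.b w = v}, lw (x w) : ℝ) : ℂ)) z :=
    fun z => by rw [← funext hψ]
  rw [← tsum_congr hsum, ← D.tsum_fubini w₀ (fun x => ∑ w, Fw w x)]
  swap
  · refine (Set.finite_univ.biUnion fun w _ => hsupp w w₀).subset fun x hx => ?_
    simp only [Function.mem_support, ne_eq, Set.indicator_apply_eq_zero, not_forall] at hx
    obtain ⟨w, -, hw⟩ := Finset.exists_ne_zero_of_sum_ne_zero hx.2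
    exact Set.mem_biUnion (x := w) trivial (by simp [hx.1, hw])
  have hind : ∀ x, {x : Fam B v | x w₀ ∈ slice X.UL w₀.1}.indicator (fun x => ∑ w, Fw w x) x =
      ∑ w, {x : Fam B v | x w₀ ∈ slice X.UL w₀.1}.indicator (Fw w) x := fun x => by
    by_cases h : x w₀ ∈ slice X.UL w₀.1 <;> simp [h]
  rw [tsum_congr hind, Summable.tsum_finsetSum fun w _ => summable_of_hasFiniteSupport (hsupp w w₀)]
  have hw : ∀ w, ∑' x, {x : Fam B v | x w₀ ∈ slice X.UL w₀.1}.indicator (Fw w) x =
      ∑' z, (slice X.UK v).indicator (fun z => (lw z : ℂ) * (P.kv v).k (δ • z) z) z := by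
    intro w
    rw [D.tsum_shift w₀ w (Fw w) (hFw w), D.tsum_fubini w (Fw w) (hsupp w w)]
    refine tsum_congr fun z => ?_
    by_cases hzs : z ∈ slice X.UK v
    · rw [Set.indicator_of_mem hzs, Set.indicator_of_mem hzs, ← D.sum_x w z, ← tsum_mul_left]
      refine tsum_congr fun x => ?_
      split_ifs with hx
      · simp only [Fw, F₀]
        rw [hx, D.lw_iota]
        ring
      · simp
    · rw [Set.indicator_of_notMem hzs, Set.indicator_of_notMem hzs]
  rw [Finset.sum_congr rfl fun w _ => hw w, Finset.sum_const, Finset.card_univ, D.card_eq,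
    nsmul_eq_mul]
  norm_num

variable [IsTotallyComplex K] [IsTotallyComplex L]

end SplitAt

end FermatAgent.LT.Hyp
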