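import Mathlib
import Fermat.Agent.LT.Descent.Hyp.Inf
import Fermat.Agent.LT.Descent.Hyp.Split

/-!
# Truncated integrals of a diagonal class

For small truncation the integrals over the truncated space of a glued diagonal class and of its
norm are computed from the logarithmically weighted sums over the slice, when the plain sums
vanish.
-/

set_option autoImplicit false

noncomputable section

open Matrix IsDedekindDomain NumberField Filter MeasureTheory
open scoped MatrixGroups ENNReal Topology

namespace FermatAgent.LT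

namespace Semilin.Wt

variable {L : Type*} [Field L] [NumberField L] {U : Level L} {σ : Semilin U} {k : PtKer U}
  {γ : G2 L} (W : σ.Wt k γ)

include W in
/-- An absolutely convergent weighted class is integrable on a fundamental domain. -/
theorem integrable_cls {χ : Space U → ℝ} (hχm : Measurable χ) (hχ0 : ∀ x, 0 ≤ χ x)
    (hχ : ∀ (g : G2 L) x, χ (g • x) = χ x)
    (hint : Integrable (fun y => σ.term k γ y * W.Θ y * χ y) (Space.vol U))
    {s : Set (Space U)} (hs : IsFundamentalDomain (G2 L) s (Space.vol U)) :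
    Integrable (fun x => σ.sumOn k (σ.cls γ) x * (χ x : ℂ)) ((Space.vol U).restrict s) := by
  refine ⟨((σ.measurable_sumOn k _).mul
    (Complex.measurable_ofReal.comp hχm)).aestronglyMeasurable, ?_⟩
  rw [HasFiniteIntegral]
  refine lt_of_le_of_lt (lintegral_mono fun x => ?_)
    (b := ∫⁻ x in s, absCls σ k (σ.cls γ) x * ENNReal.ofReal (χ x) ∂Space.vol U) ?_
  · show ‖σ.sumOn k (σ.cls γ) x * (χ x : ℂ)‖ₑ ≤ _
    rw [enorm_mul, ← ofReal_norm (χ x : ℂ), Complex.norm_real, Real.norm_eq_abs,
      abs_of_nonneg (hχ0 x)]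
    exact mul_le_mul' (σ.enorm_sumOn_le k _ x) le_rfl
  · have h0 := W.lintegral_cls hχm hχ hs
    have h1 : ∫⁻ y, ‖σ.term k γ y‖ₑ * ENNReal.ofReal (W.Θ y) * ENNReal.ofReal (χ y) ∂Space.vol U =
        ∫⁻ y, ‖σ.term k γ y * W.Θ y * χ y‖ₑ ∂Space.vol U := lintegral_congr fun y => by
      rw [enorm_mul, enorm_mul, ← ofReal_norm (W.Θ y : ℂ), ← ofReal_norm (χ y : ℂ),
        Complex.norm_real, Complex.norm_real, Real.norm_eq_abs, Real.norm_eq_abs,
        abs_of_nonneg (W.nonneg y), abs_of_nonneg (hχ0 y)]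
    refine lt_top_iff_ne_top.mpr fun htop => hint.2.ne ?_
    rw [← h1, ← h0, htop, ENNReal.mul_top (Nat.cast_ne_zero.mpr W.m_pos.ne')]

end Semilin.Wt

namespace Hyp

open Whit TwistCtx

variable {K L : Type*} [Field K] [NumberField K] [Field L] [NumberField L] [Algebra K L]
  {X : TwistCtx K L} {B : X.Over} {P : KerPair B} {a : Kˣ}

/-- The local functions below. -/
def kapK (P : KerPair B) (a : Kˣ) (v : HeightOneSpectrum (𝓞 K)) (d : Pt X v) : ℂ :=
  (P.kv v).k ((dG a : G2 K) • d) d

/-- The finite term below. -/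
def hK (P : KerPair B) (a : Kˣ) (z : FinCoset X.UK) : ℂ :=
  (theta z : ℂ) * P.down.kfin ((dG a : G2 K) • z) z

/-- An exceptional set of places for a diagonal element, outside which it and its difference from
one are units, with finite local supports on the slice. -/
structure Supported (P : KerPair B) (a : Kˣ) (T : Finset (HeightOneSpectrum (𝓞 K)))
    (s : ∀ v, Set (Pt X v)) : Prop where
  subset : P.T ⊆ T
  out : ∀ v ∉ T, X.UK.loc v = locK v ∧ v.valuation K (a : K) = 1 ∧
    v.valuation K (1 - (a : K)) = 1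
  fin : ∀ v ∈ T, (slice X.UK v ∩ s v).Finite
  supp_mem : ∀ v ∈ T, ∀ d, kapK P a v d ≠ 0 → d ∈ s v

variable {T : Finset (HeightOneSpectrum (𝓞 K))} {v₃ : HeightOneSpectrum (𝓞 K)}

lemma hK_eq (hT : P.T ⊆ T) (z : FinCoset X.UK) :
    hK P a z = (theta z : ℂ) * KK (dG a) T (kapK P a) z := by
  classical
  rw [hK, P.down_kfin hT]
  rfl

/-- The base has one infinite place. -/
lemma subsingleton_place (X : TwistCtx K L) : Subsingleton (InfinitePlace K) :=
  ⟨fun u w => (X.uniq u).trans (X.uniq w).symm⟩

/-- Every embedding of the base gives its absolute value. -/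
lemma norm_apply_eq (X : TwistCtx K L) (φ : K →+* ℂ) (x : K) : ‖φ x‖ = X.v x := by
  rw [← InfinitePlace.apply φ x, X.uniq (InfinitePlace.mk φ)]

variable [IsTotallyComplex K] [IsTotallyComplex L]

section Below

variable {s : ∀ v, Set (Pt X v)} (hE : Supported P a T s)

section

omit [IsTotallyComplex K] [IsTotallyComplex L]

include hE in
/-- The sum over the slice vanishes with the local sum at one place of the set. -/
lemma tsum_KK_eq_zero {v : HeightOneSpectrum (𝓞 K)} (hv : v ∈ T) {κ : ∀ v, Pt X v → ℂ}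
    (hκ : ∀ v ∈ T, ∀ d, κ v d ≠ 0 → d ∈ s v)
    (h0 : ∑' d, (slice X.UK v).indicator (κ v) d = 0) :
    ∑' z, (theta z : ℂ) * KK (dG a) T κ z = 0 := by
  have h := tsum_theta_KK hE.out hE.fin hv hκ hκ (fun v _ => rfl) 0 (by rw [h0, mul_zero])
  rwa [zero_mul] at h

include hE in
/-- The sum over the slice vanishes with one local sum. -/
lemma tsum_hK_eq_zero {v : HeightOneSpectrum (𝓞 K)} (hv : v ∈ T)
    (h0 : ∑' d, (slice X.UK v).indicator (kapK P a v) d = 0) : ∑' z, hK P a z = 0 := by
  rw [tsum_congr fun z => hK_eq hE.subset z]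
  exact tsum_KK_eq_zero hE hv hE.supp_mem h0

/-- The local functions below, weighted by the logarithm at one place. -/
def kapW (P : KerPair B) (a : Kˣ) (u v : HeightOneSpectrum (𝓞 K)) : Pt X v → ℂ :=
  open Classical in Function.update (kapK P a) u (fun d => (lw d : ℂ) * kapK P a u d) v

include hE in
lemma kapW_mem {u v : HeightOneSpectrum (𝓞 K)} (hv : v ∈ T) {d : Pt X v}
    (h : kapW P a u v d ≠ 0) : d ∈ s v := by
  classical
  unfold kapW at h
  rcases eq_or_ne v u with rfl | hne
  · rw [Function.update_self] at h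
    exact hE.supp_mem v hv d (right_ne_zero_of_mul h)
  · rw [Function.update_of_ne hne] at h
    exact hE.supp_mem v hv d h

include hE in
/-- The weighted sum vanishes with the plain and weighted local sums at one place. -/
lemma tsum_kapW_eq_zero {v u : HeightOneSpectrum (𝓞 K)} (hv : v ∈ T)
    (h0 : ∑' d, (slice X.UK v).indicator (kapK P a v) d = 0)
    (h1 : v = u → ∑' d, (slice X.UK v).indicator (fun d => (lw d : ℂ) * kapK P a v d) d = 0) :
    ∑' z, (theta z : ℂ) * KK (dG a) T (kapW P a u) z = 0 := by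
  classical
  refine tsum_KK_eq_zero hE hv (fun w hw d => kapW_mem hE hw) ?_
  rcases eq_or_ne v u with rfl | hne
  · simp only [kapW, Function.update_self]
    exact h1 rfl
  · simp only [kapW, Function.update_of_ne hne]
    exact h0

end

omit [IsTotallyComplex L] in
include hE in
/-- The weighted sum below, place by place. -/
lemma tsum_hK_weight_eq :
    ∑' z, hK P a z * ((finLog e1 z + finLog e0 z : ℝ) : ℂ) =
      ∑ u ∈ T, ∑' z, (theta z : ℂ) * KK (dG a) T (kapW P a u) z := by
  classical
  set S := (finite_supp hE.out hE.fin).toFinset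
  have hmem : ∀ z, (theta z : ℂ) * KK (dG a) T (kapK P a) z ≠ 0 → z ∈ supp (dG a) T s :=
    fun z h => mem_supp_of_ne_zero hE.supp_mem h
  have hpt : ∀ z, hK P a z * ((finLog e1 z + finLog e0 z : ℝ) : ℂ) =
      ∑ u ∈ T, (theta z : ℂ) *
        KK (dG a) T (Function.update (kapK P a) u fun d => (lw d : ℂ) * kapK P a u d) z := by
    intro z
    rw [hK_eq hE.subset]
    by_cases h : (theta z : ℂ) * KK (dG a) T (kapK P a) z = 0
    · rw [h, zero_mul]
      refine (Finset.sum_eq_zero fun u hu => ?_).symm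
      rw [← KK_mul (dG a) hu (kapK P a) (fun d => (lw d : ℂ)), mul_left_comm, h, mul_zero]
    · rw [show finLog e1 z + finLog e0 z = ∑ u ∈ T, lw (z.1 u) from
        log_finprod_heights z T fun v hv => base_of_mem_supp hE.out (hmem z h) hv,
        Complex.ofReal_sum, Finset.mul_sum]
      refine Finset.sum_congr rfl fun u hu => ?_
      rw [← KK_mul (dG a) hu (kapK P a) (fun d => (lw d : ℂ))]
      ring
  have hsupp : ∀ u, ∀ v ∈ T, ∀ d,
      Function.update (kapK P a) u (fun d => (lw d : ℂ) * kapK P a u d) v d ≠ 0 → d ∈ s v := by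
    intro u v hv d hne
    rcases eq_or_ne v u with rfl | h
    · rw [Function.update_self] at hne
      exact hE.supp_mem v hv d (right_ne_zero_of_mul hne)
    · rw [Function.update_of_ne h] at hne
      exact hE.supp_mem v hv d hne
  have hsum : ∀ u ∈ T, Summable fun z : FinCoset X.UK => (theta z : ℂ) *
      KK (dG a) T (Function.update (kapK P a) u fun d => (lw d : ℂ) * kapK P a u d) z := fun u _ =>
    summable_of_hasFiniteSupport (S.finite_toSet.subset fun z hz =>
      (Set.Finite.mem_toFinset _).mpr (mem_supp_of_ne_zero (hsupp u) hz))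
  rw [tsum_congr hpt, Summable.tsum_finsetSum hsum]
  rfl

end Below

section Above

variable {γ : G2 L} {H : Subgroup (G2 K)} (G : Glue P γ (dG a) H)

/-- The lifted weight on the finite part above. -/
def thetaL (x : FinCoset X.UL) : ℝ :=
  (∑' z : FinCoset X.UK, ENNReal.ofReal (G.W x z * theta z)).toReal

/-- The finite term above. -/
def hL (x : FinCoset X.UL) : ℂ := P.up.kfin (X.finTwist γ x) x * (thetaL G x : ℂ)

/-- The supports of the glued data. -/
def totSet (v : HeightOneSpectrum (𝓞 K)) : Set (Pt X v) := {d | G.absTot v d ≠ 0}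

omit [IsTotallyComplex K] [IsTotallyComplex L] in
/-- The local support lies in the supported set. -/
lemma kapK_mem_totSet {v : HeightOneSpectrum (𝓞 K)} (hv : v ∈ G.T) (d : Pt X v)
    (h : kapK P a v d ≠ 0) : d ∈ totSet G v := by
  refine G.absTot_ne_zero_of_psi hv (φ := fun _ => 1) ?_
  simp only [Glue.psi, mul_one, G.sum_x v hv d]
  exact h

variable {G} (hE : Supported P a G.T (totSet G))

section

omit [IsTotallyComplex K] [IsTotallyComplex L]

include hE in
open Classical in
lemma hL_eq (x : FinCoset X.UL) :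
    hL G x = ∑ z ∈ (finite_supp hE.out hE.fin).toFinset,
      (theta z : ℂ) * (P.up.kfin (X.finTwist γ x) x * (G.W x z : ℂ)) := by
  have := subsingleton_place X
  rw [hL, thetaL, ENNReal.tsum_toReal_eq fun z => ENNReal.ofReal_ne_top, Complex.ofReal_tsum,
    ← tsum_mul_left, tsum_eq_sum (s := (finite_supp hE.out hE.fin).toFinset) fun z hz => ?_]
  · refine Finset.sum_congr rfl fun z _ => ?_
    rw [ENNReal.toReal_ofReal (mul_nonneg (G.W_nonneg _ _) (theta_nonneg _))]
    push_cast
    ring
  · rw [ENNReal.toReal_ofReal (mul_nonneg (G.W_nonneg _ _) (theta_nonneg _))]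
    by_contra h
    refine hz ((Set.Finite.mem_toFinset _).mpr ?_)
    have hkW : P.up.kfin (X.finTwist γ x) x * (G.W x z : ℂ) ≠ 0 := fun h0 => h (by
      push_cast; rw [← mul_assoc, h0, zero_mul])
    have hθ : theta z ≠ 0 := fun h0 => h (by simp [h0])
    have habs : G.absSum z ≠ 0 := by
      have h1 := le_hasSum (G.hasSum_abs z) x fun _ _ => norm_nonneg _
      have h2 : 0 < ‖P.up.kfin (X.finTwist γ x) x * (G.W x z : ℂ)‖ := norm_pos_iff.mpr hkW
      linarith
    unfold Glue.absSum at habs
    split_ifs at habs with hfix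
    · refine ⟨fun v => ?_, hfix, fun v hv => Finset.prod_ne_zero_iff.mp habs v hv⟩
      by_contra hns
      exact hθ (if_neg fun hh : (∀ v, z.1 v ∈ slice X.UK v) => hns (hh v))
    · exact absurd rfl habs

include hE in
lemma exists_supp_hL :
    ∃ S : Finset (FinCoset X.UL), ∀ x ∉ S, hL G x = 0 := by
  classical
  refine ⟨(finite_supp hE.out hE.fin).toFinset.biUnion fun z =>
    (G.finite_x_global z).toFinset, fun x hx => ?_⟩
  rw [hL_eq hE x]
  refine Finset.sum_eq_zero fun z hz => ?_
  by_contra h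
  exact hx
    (Finset.mem_biUnion.mpr ⟨z, hz, (Set.Finite.mem_toFinset _).mpr (right_ne_zero_of_mul h)⟩)

include hE in
open Classical in
lemma tsum_hL_mul (φ : FinCoset X.UL → ℂ) :
    ∑' x, hL G x * φ x = ∑ z ∈ (finite_supp hE.out hE.fin).toFinset, (theta z : ℂ) *
      ∑' x, P.up.kfin (X.finTwist γ x) x * (G.W x z : ℂ) * φ x := by
  simp only [hL_eq hE, Finset.sum_mul, ← tsum_mul_left]
  rw [Summable.tsum_finsetSum fun z _ => summable_of_hasFiniteSupport
    ((G.finite_x_global z).subset fun x hx => right_ne_zero_of_mul (left_ne_zero_of_mul hx))]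
  exact Finset.sum_congr rfl fun z _ => tsum_congr fun x => by ring

include hE in
lemma tsum_hL : ∑' x, hL G x = ∑' z, hK P a z := by
  classical
  have h := tsum_hL_mul hE fun _ => (1 : ℂ)
  simp only [mul_one, (G.hasSum_x _).tsum_eq] at h
  rw [h]
  refine (tsum_eq_sum (f := hK P a) fun z hz => ?_).symm
  by_contra h
  exact hz ((Set.Finite.mem_toFinset _).mpr (mem_supp_of_ne_zero hE.supp_mem
    (hK_eq hE.subset z ▸ h)))

variable (G) in
/-- The local functions below, with the lifted logarithmic weight at one place. -/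
def psiW (u v : HeightOneSpectrum (𝓞 K)) : Pt X v → ℂ :=
  open Classical in Function.update (kapK P a) u
    (G.psi u fun y => ((∑ w : {w // B.b w = u}, lw (y w) : ℝ) : ℂ)) v

include hE in
lemma psiW_mem {u v : HeightOneSpectrum (𝓞 K)} (hu : u ∈ G.T) (hv : v ∈ G.T) {d : Pt X v}
    (h : psiW G u v d ≠ 0) : d ∈ totSet G v := by
  classical
  unfold psiW at h
  rcases eq_or_ne v u with rfl | hne
  · rw [Function.update_self] at h
    exact G.absTot_ne_zero_of_psi hv h
  · rw [Function.update_of_ne hne] at h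
    exact hE.supp_mem v hv d h

end

omit [IsTotallyComplex K] in
include hE in
open Classical in
/-- The logarithmic sum above, place by place. -/
lemma tsum_hL_weight_eq :
    ∑' x, hL G x * ((finLog e1 x + finLog e0 x : ℝ) : ℂ) =
      ∑ u ∈ G.T, ∑' z, (theta z : ℂ) * KK (dG a) G.T (psiW G u) z := by
  set S := (finite_supp hE.out hE.fin).toFinset
  have hinner : ∀ z ∈ S, ∑' x, P.up.kfin (X.finTwist γ x) x * (G.W x z : ℂ) *
      ((finLog e1 x + finLog e0 x : ℝ) : ℂ) = ∑ u ∈ G.T, KK (dG a) G.T (psiW G u) z := by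
    intro z hz
    have hpt : ∀ x, P.up.kfin (X.finTwist γ x) x * (G.W x z : ℂ) *
        ((finLog e1 x + finLog e0 x : ℝ) : ℂ) =
      ∑ u ∈ G.T, P.up.kfin (X.finTwist γ x) x * (G.W x z : ℂ) *
        ((∑ w : {w // B.b w = u}, lw (Glue.resF (B := B) x u w) : ℝ) : ℂ) := by
      intro x
      rw [← Finset.mul_sum]
      by_cases h0 : P.up.kfin (X.finTwist γ x) x * (G.W x z : ℂ) = 0
      · rw [h0, zero_mul, zero_mul]
      congr 1
      rw [← Complex.ofReal_sum, Complex.ofReal_inj]
      have hW : G.W x z ≠ 0 := fun hh => h0 (by simp [hh])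
      unfold Glue.W at hW
      split_ifs at hW with hc
      swap
      · exact absurd rfl hW
      have hbase : ∀ w ∉ KerPair.above (B := B) G.T, x.1 w = QuotientGroup.mk 1 := by
        intro w hw
        have hv : B.b w ∉ G.T := fun hh => hw (KerPair.mem_above.mpr hh)
        have h := congrFun (hc (B.b w) hv).2 ⟨w, rfl⟩
        rw [base_of_mem_supp hE.out ((Set.Finite.mem_toFinset _).mp hz) hv, G.lift_base _ hv] at h
        exact h
      show Real.log _ + Real.log _ = _
      rw [log_finprod_heights x _ hbase,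
        ← Finset.sum_fiberwise_of_maps_to (g := B.b) (t := G.T) fun w hw => KerPair.mem_above.mp hw]
      refine Finset.sum_congr rfl fun u hu => ?_
      rw [Finset.sum_subtype ((KerPair.above (B := B) G.T).filter fun w => B.b w = u)
        (p := fun w => B.b w = u) fun w => ?_]
      · rfl
      · simp only [Finset.mem_filter, KerPair.mem_above, and_iff_right_iff_imp]
        exact fun h => h ▸ hu
    rw [tsum_congr hpt, Summable.tsum_finsetSum fun u _ => summable_of_hasFiniteSupport
      ((G.finite_x_global z).subset fun x hx => left_ne_zero_of_mul hx)]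
    exact Finset.sum_congr rfl fun u hu =>
      G.tsum_x_mul hu (fun y => ((∑ w : {w // B.b w = u}, lw (y w) : ℝ) : ℂ)) z
  have htot : ∀ u ∈ G.T, ∑ z ∈ S, (theta z : ℂ) * KK (dG a) G.T (psiW G u) z =
      ∑' z, (theta z : ℂ) * KK (dG a) G.T (psiW G u) z := fun u hu =>
    (tsum_eq_sum fun z hz => by
      by_contra h
      exact hz ((Set.Finite.mem_toFinset _).mpr (mem_supp_of_ne_zero (fun v hv d =>
        psiW_mem hE hu hv) h))).symm
  rw [tsum_hL_mul hE, Finset.sum_congr rfl fun z hz => by rw [hinner z hz, Finset.mul_sum],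
    Finset.sum_comm, Finset.sum_congr rfl htot]

variable (D : SplitAt P γ (dG a) v₃) (w₀ : {w // B.b w = v₃})

omit [IsTotallyComplex K] in
include hE in
open Classical in
/-- The logarithmic sum above is three times the weighted sum below at a split place with vanishing
plain sum. -/
lemma tsum_hL_weight (hv : v₃ ∈ G.T) (hH : ∀ α : Kˣ, (dG α : G2 K) ∈ H)
    (hA : ∀ x z, G.A v₃ x z = if x w₀ = D.iota w₀ z then 1 else 0)
    (h0 : ∑' d, (slice X.UK v₃).indicator (kapK P a v₃) d = 0) :
    ∑' x, hL G x * ((finLog e1 x + finLog e0 x : ℝ) : ℂ) =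
      3 * ∑' z, (theta z : ℂ) * KK (dG a) G.T (kapW P a v₃) z := by
  classical
  rw [tsum_hL_weight_eq hE, Finset.sum_eq_single v₃]
  · refine tsum_theta_KK hE.out hE.fin hv (fun v hv d => kapW_mem hE hv)
      (fun w hw d => psiW_mem hE hv hw) (fun v hne => ?_) 3 ?_
    · simp only [psiW, kapW, Function.update_of_ne hne]
    · simp only [psiW, kapW, Function.update_self]
      exact D.tsum_psi G hv hH w₀ hA (hE.fin v₃ hv)
  · intro u hu hne
    refine tsum_KK_eq_zero hE hv (fun w hw d => psiW_mem hE hu hw) ?_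
    simp only [psiW, Function.update_of_ne hne.symm]
    exact h0
  · exact fun h => absurd hv h

end Above

section Integral

variable {b : Lˣ}

omit [IsTotallyComplex L] in
open Classical in
/-- **A diagonal class below**: if the plain sum over the slice vanishes, the truncated integral
is, for small truncation, half the sum weighted by the logarithmic heights of the two lines times
the mass at infinity, over the index. -/
theorem class_trunc_K [IsPrincipalIdealRing (𝓞 K)] {s : ∀ v, Set (Pt X v)}
    (hE : Supported P a T s) (ha : (a : K) ≠ 1) [(X.subK (dG a) (diagG K)).FiniteIndex]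
    (hH : ∀ h ∈ diagG K, h * dG a * h⁻¹ = dG a) (h0 : ∑' z, hK P a z = 0) {V : ℂ}
    (h1 : ∑' z, hK P a z * ((finLog e1 z + finLog e0 z : ℝ) : ℂ) = V)
    {sK : Set (Space X.UK)} (hs : IsFundamentalDomain (G2 K) sK (Space.vol X.UK)) :
    ∀ᶠ ε in 𝓝[>] (0 : ℝ),
      Integrable (fun x => X.σK.sumOn P.down.toPtKer (X.σK.cls (dG a)) x * (Space.trunc ε x : ℂ))
          ((Space.vol X.UK).restrict sK) ∧
        ((X.subK (dG a) (diagG K)).index : ℂ) *
          ∫ x in sK, X.σK.sumOn P.down.toPtKer (X.σK.cls (dG a)) x * (Space.trunc ε x : ℂ)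
            ∂Space.vol X.UK = V * (axisK (X := X) P.k ha).I0 X.v / 2 := by
  have : Subsingleton (InfinitePlace K) := ⟨fun u w => (X.uniq u).trans (X.uniq w).symm⟩
  have : Unique (InfinitePlace K) := ⟨⟨X.v⟩, fun w => X.uniq w⟩
  set A := axisK (X := X) P.k ha
  set W := wtK P (δ := dG a) hH (baseWt X)
  set S := (finite_supp hE.out hE.fin).toFinset
  have hS : ∀ z ∉ S, hK P a z = 0 := fun z hz => by
    by_contra h
    exact hz ((Set.Finite.mem_toFinset _).mpr (mem_supp_of_ne_zero hE.supp_mem
      (hK_eq hE.subset z ▸ h)))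
  have hterm : ∀ (y : Space X.UK) (r : ℝ),
      X.σK.term P.down.toPtKer (dG a) y * (W.Θ y : ℂ) * (r : ℂ) =
        A.g y.1 * hK P a y.2 * (r : ℂ) := by
    intro y r
    congr 1
    have hone : P.down.kinf (((dG a : G2 K) • y.1) : InfPts K) y.1 = A.g y.1 := P.down_kinf _ _
    show P.down.kinf ((dG a : G2 K) • y.1) y.1 * P.down.kfin ((dG a : G2 K) • y.2) y.2 *
      (theta y.2 : ℂ) = _
    rw [hone, hK]
    ring
  have hsum : ∀ φ : FinCoset X.UK → ℂ, ∑ z ∈ S, hK P a z * φ z = ∑' z, hK P a z * φ z := fun φ =>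
    (tsum_eq_sum fun z hz => by rw [hS z hz, zero_mul]).symm
  filter_upwards [A.integral_trunc X.v (hK P a) S hS] with ε ⟨hi, hval⟩
  have hint : Integrable (fun y => X.σK.term P.down.toPtKer (dG a) y * (W.Θ y : ℂ) *
      (Space.trunc ε y : ℂ)) (Space.vol X.UK) := by simp only [hterm]; exact hi
  refine ⟨W.integrable_cls (Space.measurable_trunc ε) (Space.trunc_nonneg ε) (Space.trunc_smul ε)
    hint hs, ?_⟩
  have hcls := W.integral_cls (Space.measurable_trunc ε) (Space.trunc_smul ε) hint hs
  simp only [hterm] at hcls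
  rw [show ((X.subK (dG a) (diagG K)).index : ℂ) = (W.m : ℂ) from rfl, hcls, hval]
  have hn : Fintype.card (InfinitePlace K) = 1 := Fintype.card_unique
  have e : ∀ z, hK P a z * ((A.I1 X.v + ((finLog e1 z + finLog e0 z - 2 * Real.log ε : ℝ) : ℂ) *
      A.I0 X.v) / (2 * (Fintype.card (InfinitePlace K) : ℂ))) =
      hK P a z * ((A.I1 X.v - 2 * (Real.log ε : ℂ) * A.I0 X.v) / 2) +
      hK P a z * ((finLog e1 z + finLog e0 z : ℝ) : ℂ) * (A.I0 X.v / 2) := fun z => by
    rw [hn]
    push_cast
    ring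
  rw [Finset.sum_congr rfl fun z _ => e z, Finset.sum_add_distrib, ← Finset.sum_mul,
    ← Finset.sum_mul,
    hsum (fun z => ((finLog e1 z + finLog e0 z : ℝ) : ℂ)), h1]
  have h := hsum fun _ => 1
  simp only [mul_one] at h
  rw [h, h0]
  ring

omit [IsTotallyComplex K] in
open Classical in
/-- **A glued diagonal class above**: if the plain sum over the slice vanishes, the truncated
integral is, for small truncation, a sixth of the sum weighted by the logarithmic heights of the
two lines times the mass at infinity, over the index. -/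
theorem class_trunc_L [IsPrincipalIdealRing (𝓞 K)] (ha : (a : K) ≠ 1)
    (G : Glue P (dG b) (dG a) (diagG K)) [G.subC.FiniteIndex]
    (hE : Supported P a G.T (totSet G)) (h0 : ∑' z, hK P a z = 0) {V : ℂ}
    (h1 : ∑' x, hL G x * ((finLog e1 x + finLog e0 x : ℝ) : ℂ) = V)
    {sL : Set (Space X.UL)} (hs : IsFundamentalDomain (G2 L) sL (Space.vol X.UL)) :
    ∀ᶠ ε in 𝓝[>] (0 : ℝ),
      Integrable (fun x => X.σ.sumOn P.up.toPtKer (X.σ.cls (dG b)) x * (Space.trunc ε x : ℂ))
          ((Space.vol X.UL).restrict sL) ∧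
        (G.subC.index : ℂ) *
          ∫ x in sL, X.σ.sumOn P.up.toPtKer (X.σ.cls (dG b)) x * (Space.trunc ε x : ℂ)
            ∂Space.vol X.UL = V * (axisL (X := X) P.k ha G.norm_eq).I0 (X.T.e 0) / 6 := by
  have : Subsingleton (InfinitePlace K) := ⟨fun u w => (X.uniq u).trans (X.uniq w).symm⟩
  set A := axisL (X := X) P.k ha G.norm_eq
  set W := G.wt (baseWt X)
  obtain ⟨S, hS⟩ := exists_supp_hL hE
  have hterm : ∀ (y : Space X.UL) (r : ℝ), X.σ.term P.up.toPtKer (dG b) y * (W.Θ y : ℂ) * (r : ℂ) =
      A.g y.1 * hL G y.2 * (r : ℂ) := by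
    intro y r
    congr 1
    show P.up.kinf _ _ * P.up.kfin (X.finTwist (dG b) y.2) y.2 * (thetaL G y.2 : ℂ) = _
    rw [hL, ← mul_assoc]
    rfl
  have hsum : ∀ φ : FinCoset X.UL → ℂ, ∑ x ∈ S, hL G x * φ x = ∑' x, hL G x * φ x := fun φ =>
    (tsum_eq_sum fun x hx => by rw [hS x hx, zero_mul]).symm
  filter_upwards [A.integral_trunc (X.T.e 0) (hL G) S hS] with ε ⟨hi, hval⟩
  have hint : Integrable (fun y => X.σ.term P.up.toPtKer (dG b) y * (W.Θ y : ℂ) *
      (Space.trunc ε y : ℂ)) (Space.vol X.UL) := by simp only [hterm]; exact hi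
  refine ⟨W.integrable_cls (Space.measurable_trunc ε) (Space.trunc_nonneg ε) (Space.trunc_smul ε)
    hint hs, ?_⟩
  have hcls := W.integral_cls (Space.measurable_trunc ε) (Space.trunc_smul ε) hint hs
  simp only [hterm] at hcls
  rw [show (G.subC.index : ℂ) = (W.m : ℂ) from rfl, hcls, hval]
  have h3 : Fintype.card (InfinitePlace L) = 3 := by
    rw [← Fintype.card_congr X.T.e, Fintype.card_fin]
  have e : ∀ x, hL G x * ((A.I1 (X.T.e 0) + ((finLog e1 x + finLog e0 x - 2 * Real.log ε : ℝ) : ℂ) *
      A.I0 (X.T.e 0)) / (2 * (Fintype.card (InfinitePlace L) : ℂ))) =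
      hL G x * ((A.I1 (X.T.e 0) - 2 * (Real.log ε : ℂ) * A.I0 (X.T.e 0)) / 6) +
      hL G x * ((finLog e1 x + finLog e0 x : ℝ) : ℂ) * (A.I0 (X.T.e 0) / 6) := fun x => by
    rw [h3]
    push_cast
    ring
  rw [Finset.sum_congr rfl fun x _ => e x, Finset.sum_add_distrib, ← Finset.sum_mul,
    ← Finset.sum_mul,
    hsum (fun x => ((finLog e1 x + finLog e0 x : ℝ) : ℂ)), h1]
  have h := hsum fun _ => 1
  simp only [mul_one] at h
  rw [h, tsum_hL hE, h0]
  ring

end Integral

end Hyp

end FermatAgent.LT
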